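/-
P-ES1 / ES1-A (helper23): GENERIC form of ES-A ("torsion of the Jacobian over `ℂ` via characters
of the uniformising group") for an ARBITRARY model `(Γ, F)`:

* `Γ` a subgroup of `SL(2, ℤ)` (finite index, containing `-1`),
* `F ⊆ ℂ((q))` a field of `q`-expansions (`IntermediateField ℂ (LaurentSeries ℂ)`),
* `R ⊆ F` a `ℂ`-subalgebra with `F = Frac R` whose elements are represented by holomorphic
  `Γ`-invariant functions on `ℍ` of moderate growth at all cusps,
* `j ∈ R` the element with the `q`-expansion of the `j`-function.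

This file: the model, the INPUT structure `Model.IsModular`, and the main statement
`TorsionCharStatement`.  Definitions and statement-Props only.

The `Γ₀(N)` instance of all of this is the landed ES-A (`Fermat.Agent.H23.EsA`); every definition
here is the verbatim generalisation of the definition of the same name there
(`Gamma0 N ↦ X.Γ`, `FC N ↦ X.F`, `RsubC N ↦ X.R`, `jC N 1 _ ↦ X.j`).
-/
import Fermat.Agent.H23.EsA.Lemmas2

set_option autoImplicit false

noncomputable section

open AlgebraicCurve UpperHalfPlane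
open scoped MatrixGroups Manifold

namespace Fermat.Agent.H23.ES1A

open Fermat.Agent.H23 (jfun)
open Fermat.Agent.H23.EsA (ModerateGrowth GrowthAtInfty cuspOrd CosetDatum)

/-- A *model*: a uniformising group, a field of `q`-expansions, a subalgebra of "holomorphic"
elements and the element `j`. -/
structure Model where
  /-- the uniformising group (in the applications `⟨Γ₁(M), -1⟩`, `Γ₀(N)`) -/
  Γ : Subgroup SL(2, ℤ)
  /-- the function field over `ℂ`, inside `ℂ((q))` -/
  F : IntermediateField ℂ (LaurentSeries ℂ)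
  /-- a subalgebra of elements which are holomorphic on `ℍ` -/
  R : Subalgebra ℂ ↥F
  /-- the element `j` -/
  j : ↥F

/-- The holomorphic function `h` on `ℍ` *represents* the element `f` of the function field:
its Laurent `q`-expansion is `f`. -/
def Rep (X : Model) (h : ℍ → ℂ) (f : ↥X.F) : Prop :=
  Fermat.Agent.H44.LaurentRel h (f : LaurentSeries ℂ)

/-- **The inputs** (the only statements which depend on the shape of `Γ` and `F`). -/
structure Model.IsModular (X : Model) : Prop where
  /-- `-1 ∈ Γ` (replace `Γ` by `⟨Γ, -1⟩`: both act in the same way on `ℍ`) -/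
  neg_one_mem : (-1 : SL(2, ℤ)) ∈ X.Γ
  /-- `T ∈ Γ` (the cusp `i∞` has width one: the elements of `F` are series in `q`) -/
  T_mem : ModularGroup.T ∈ X.Γ
  /-- `Γ` has finite index in `SL(2, ℤ)` -/
  finiteIndex : X.Γ.FiniteIndex
  /-- `j ∈ R` -/
  j_mem : X.j ∈ X.R
  /-- `j` is represented by the analytic `j`-function -/
  j_rep : Rep X jfun X.j
  /-- `F` is the field of fractions of `R` -/
  frac : ∀ f : ↥X.F, ∃ r s : ↥X.F, r ∈ X.R ∧ s ∈ X.R ∧ s ≠ 0 ∧ f * s = r
  /-- every element of `R` is represented by a holomorphic `Γ`-invariant function of moderate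
  growth at all cusps -/
  rep : ∀ r : ↥X.F, r ∈ X.R → ∃ h : ℍ → ℂ, Rep X h r ∧ MDiff h ∧
    (∀ γ ∈ X.Γ, ∀ z : ℍ, h (γ • z) = h z) ∧ ModerateGrowth h
  /-- **separation**: an element of `SL(2, ℤ)` fixing all the functions representing elements of
  `R` lies in `Γ` -/
  sep : ∀ γ : SL(2, ℤ),
    (∀ (r : ↥X.F) (h : ℍ → ℂ), r ∈ X.R → Rep X h r → ∀ z : ℍ, h (γ • z) = h z) → γ ∈ X.Γ

/-- A (unitary) character of `Γ` is *parabolic-elliptic trivial* if it kills every element
of trace of absolute value at most `2` (i.e. `±1`, the elliptic and the parabolic elements). -/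
def IsParEllTrivial (X : Model) (χ : ↥X.Γ →* ℂˣ) : Prop :=
  ∀ γ : ↥X.Γ, |((γ : SL(2, ℤ)) 0 0 + (γ : SL(2, ℤ)) 1 1 : ℤ)| ≤ 2 → χ γ = 1

/-- The holomorphic function `G` on `ℍ` transforms under `Γ` by the character `χ`. -/
def HasCharacter (X : Model) (G : ℍ → ℂ) (χ : ↥X.Γ →* ℂˣ) : Prop :=
  ∀ (γ : ↥X.Γ) (z : ℍ), G ((γ : SL(2, ℤ)) • z) = (χ γ : ℂ) * G z

/-- **The torsion–character relation.**  The class `x ∈ Pic⁰(F)` is represented by a divisor
`D` of degree zero with `m • D = div f`, where `f` is represented by `G ^ m` for a holomorphic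
function `G` on `ℍ` transforming by the character `χ`. -/
def TorsionCharRel (X : Model) (m : ℕ) (x : Pic0 ℂ ↥X.F) (χ : ↥X.Γ →* ℂˣ) : Prop :=
  ∃ (D : Divisor.degZero (K := ℂ) (F := ↥X.F)) (f : ↥X.F) (G : ℍ → ℂ),
    Pic0.mk D = x ∧ f ≠ 0 ∧
    (∀ v : Place ℂ ↥X.F, v.ord f = (m : ℤ) * (D : Divisor ℂ ↥X.F) v) ∧
    MDiff G ∧ Rep X (G ^ m) f ∧ HasCharacter X G χ

/-- **ES1-A (main statement).**  For `m > 0` the relation `TorsionCharRel X m` is the graph of a
group isomorphism between `Pic⁰(F)[m]` and the group of parabolic-elliptic trivial characters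
of `Γ` of exponent `m`. -/
def TorsionCharStatement (X : Model) : Prop :=
  ∀ m : ℕ, 0 < m →
    -- every `m`-torsion class has a character
    (∀ x : Pic0 ℂ ↥X.F, x ∈ Pic0.torsion ℂ ↥X.F m → ∃ χ, TorsionCharRel X m x χ) ∧
    -- the character is unique
    (∀ x χ χ', TorsionCharRel X m x χ → TorsionCharRel X m x χ' → χ = χ') ∧
    -- related pairs consist of a torsion class and an admissible character
    (∀ x χ, TorsionCharRel X m x χ →
      x ∈ Pic0.torsion ℂ ↥X.F m ∧ χ ^ m = 1 ∧ IsParEllTrivial X χ) ∧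
    -- additivity
    (∀ x x' χ χ', TorsionCharRel X m x χ → TorsionCharRel X m x' χ' →
      TorsionCharRel X m (x + x') (χ * χ')) ∧
    -- injectivity
    (∀ x, TorsionCharRel X m x 1 → x = 0) ∧
    -- surjectivity
    (∀ χ : ↥X.Γ →* ℂˣ, χ ^ m = 1 → IsParEllTrivial X χ → ∃ x, TorsionCharRel X m x χ)

end Fermat.Agent.H23.ES1A

end
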