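/-
P-ES1 / ES1-A (helper23): statement-Props of the sub-packages of `TorsionCharStatement`, for an
arbitrary model.  Interfaces only.  Every Prop is the verbatim generalisation of the Prop of the
same name in `Fermat.Agent.H23.EsA` (`.Parts`, `.DatumC`, `.Lemmas`).

The Mathlib-only statements of ES-A which do not mention the group or the field
(`RootStatement`, `MultiplierCharStatement`, `PowOrderStatement`, `PowEqStatement`,
`CuspPowStatement`, `CuspRootStatement`, `EllipticFixStatement`, `FixTraceStatement`,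
`ParabolicFormStatement`, `OrderMoebiusStatement`, `CuspPeriodStatement`, `OrderFiniteStatement`,
`LocalCountingRefinedStatement`) are used verbatim from `Fermat.Agent.H23.EsA`.
-/
import Fermat.Agent.H23.ES1A.Defs

set_option autoImplicit false

noncomputable section

open AlgebraicCurve UpperHalfPlane IntermediateField
open scoped MatrixGroups Manifold

namespace Fermat.Agent.H23.ES1A

open Fermat.Agent.H23 (jfun)
open Fermat.Agent.H23.EsA (ModerateGrowth GrowthAtInfty cuspOrd CosetDatum)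

/-! ### Low-level packages -/

/-- **[REP-REG]** a holomorphic function representing an element of the function field is
`Γ`-invariant and of moderate growth at all cusps. -/
def RepRegularStatement (X : Model) : Prop :=
  ∀ (f : ↥X.F) (h : ℍ → ℂ), Rep X h f →
    (∀ γ ∈ X.Γ, ∀ z : ℍ, h (γ • z) = h z) ∧ ModerateGrowth h

/-- **[DEG]** `j` is transcendental and the function field has degree exactly the index of `Γ`
over `ℂ(j)`. -/
def DegreeStatement (X : Model) : Prop :=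
  Transcendental ℂ X.j ∧
    FiniteDimensional ℂ⟮X.j⟯ ↥X.F ∧
    Module.finrank ℂ⟮X.j⟯ ↥X.F = Nat.card (SL(2, ℤ) ⧸ X.Γ)

/-- **[PD]** principal divisors exist (finite support) and have degree zero; functions without
zeros and poles are constant. -/
def PrincipalDivisorStatement (X : Model) : Prop :=
  HasPrincipalDivisors (K := ℂ) (F := ↥X.F) ∧
  (∀ f : ↥X.F, f ≠ 0 → (∀ v : Place ℂ ↥X.F, v.ord f = 0) →
    ∃ c : ℂ, f = algebraMap ℂ ↥X.F c)

/-- The place `v` is the place of the point `z₀ ∈ ℍ`, with multiplier `s` (weak form: `s` is a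
multiple of the order of the stabiliser of `z₀` in `Γ/±1`). -/
def IsPointPlace (X : Model) (z₀ : ℍ) (v : Place ℂ ↥X.F) (s : ℕ) : Prop :=
  0 < s ∧
  (∀ (f : ↥X.F) (h : ℍ → ℂ), f ≠ 0 → Rep X h f →
    meromorphicOrderAt (h ∘ ofComplex) (z₀ : ℂ) = (((s : ℤ) * v.ord f : ℤ) : WithTop ℤ)) ∧
  (∀ γ ∈ X.Γ, γ • z₀ = z₀ → (denom γ z₀ ^ 2) ^ s = 1)

/-- Strong form: moreover `s` is exactly the order of the group of multipliers
`{(c z₀ + d)² : γ ∈ Γ, γ z₀ = z₀}`. -/
def IsPointPlaceStrong (X : Model) (z₀ : ℍ) (v : Place ℂ ↥X.F) (s : ℕ) : Prop :=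
  IsPointPlace X z₀ v s ∧
  (∀ k : ℤ, (∀ γ ∈ X.Γ, γ • z₀ = z₀ → (denom γ z₀ ^ 2) ^ k = 1) → (s : ℤ) ∣ k)

/-- The place `v` is the place of the cusp `δ • i∞`, of width `w`. -/
def IsCuspPlace (X : Model) (δ : SL(2, ℤ)) (v : Place ℂ ↥X.F) (w : ℕ) : Prop :=
  0 < w ∧
  (∀ k : ℤ, δ * ModularGroup.T ^ k * δ⁻¹ ∈ X.Γ ↔ (w : ℤ) ∣ k) ∧
  (∀ (f : ↥X.F) (h : ℍ → ℂ), f ≠ 0 → Rep X h f →
    cuspOrd w (fun z => h (δ • z)) = ((v.ord f : ℤ) : WithTop ℤ))

/-- **[PLACES]** every point of `ℍ` and every cusp has a place, and every place of the function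
field arises in this way. -/
def PlacesStatement (X : Model) : Prop :=
  (∀ z₀ : ℍ, ∃ v s, IsPointPlace X z₀ v s) ∧
  (∀ δ : SL(2, ℤ), ∃ v w, IsCuspPlace X δ v w) ∧
  (∀ v : Place ℂ ↥X.F,
    (∃ z₀ s, IsPointPlaceStrong X z₀ v s) ∨ (∃ δ w, IsCuspPlace X δ v w))

/-- **[CHAR]** (Mathlib only): a nonzero holomorphic function whose `m`-th power is
`Γ`-invariant transforms by a character of exponent `m`; the character is unique. -/
def CharOfRootStatement (X : Model) : Prop :=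
  ∀ m : ℕ, 0 < m → ∀ G : ℍ → ℂ, MDiff G → G ≠ 0 →
    ((∀ γ ∈ X.Γ, ∀ z : ℍ, G (γ • z) ^ m = G z ^ m) →
      ∃ χ : ↥X.Γ →* ℂˣ, χ ^ m = 1 ∧ HasCharacter X G χ) ∧
    (∀ χ χ' : ↥X.Γ →* ℂˣ, HasCharacter X G χ → HasCharacter X G χ' → χ = χ')

/-- **[HOL]** every holomorphic `Γ`-invariant function of moderate growth at all cusps is
(represents) an element of the function field. -/
def HolModularStatement (X : Model) : Prop :=
  ∀ h : ℍ → ℂ, MDiff h → (∀ γ ∈ X.Γ, ∀ z : ℍ, h (γ • z) = h z) →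
    ModerateGrowth h → ∃ f : ↥X.F, Rep X h f

/-- **[EIS]** for every parabolic-elliptic trivial character of finite exponent there is a
nonzero holomorphic function on `ℍ` of moderate growth transforming by it
(`E_χ · E₄² / Δ` with `E_χ` the weight-4 Eisenstein series with character). -/
def EisCharStatement (X : Model) : Prop :=
  ∀ (m : ℕ) (χ : ↥X.Γ →* ℂˣ), 0 < m → χ ^ m = 1 → IsParEllTrivial X χ →
    ∃ G : ℍ → ℂ, MDiff G ∧ G ≠ 0 ∧ HasCharacter X G χ ∧ ModerateGrowth G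

/-! ### Sub-packages of `PlacesStatement` -/

/-- **[PL-1]** germ embedding at an arbitrary point of `ℍ`: a valued field and an embedding of
the function field whose valuation is the order of vanishing at `z₀`. -/
def PointEmbeddingStatement (X : Model) : Prop :=
  ∀ z₀ : ℍ, ∃ (M : Type) (_ : Field M) (val : AddValuation M (WithTop ℤ))
    (σ : ↥X.F →+* M),
    (∀ c : ℂ, c ≠ 0 → val (σ (algebraMap ℂ ↥X.F c)) = 0) ∧
    ∀ (f : ↥X.F) (h : ℍ → ℂ), f ≠ 0 → Rep X h f →
      val (σ f) = meromorphicOrderAt (h ∘ ofComplex) (z₀ : ℂ)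

/-- **[PL-2]** transparent coset datum at a base point over every `a ∈ ℂ`. -/
def PointDatumStatement (X : Model) : Prop :=
  ∀ a : ℂ, ∃ (z₀ : ℍ) (g : SL(2, ℤ)) (e₀ : ℕ)
    (A : CosetDatum ℂ ↥X.F X.Γ (X.j - algebraMap ℂ ↥X.F a) g e₀),
    0 < e₀ ∧ jfun z₀ = a ∧ g • z₀ = z₀ ∧ IsPrimitiveRoot (denom g z₀ ^ 2) e₀ ∧
    ∀ (γ : SL(2, ℤ)) (f : ↥X.F) (h : ℍ → ℂ), f ≠ 0 → Rep X h f →
      A.val (A.σ γ f) = meromorphicOrderAt ((fun z => h (γ⁻¹ • z)) ∘ ofComplex) (z₀ : ℂ)

/-- **[PL-3]** transparent coset datum at the cusp: the valuation is the order in the variable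
`exp (2πi z / e₀)`, where `e₀ > 0` is a common multiple of all cusp widths of `Γ`
(for `Γ₀(N)`: `e₀ = N`). -/
def CuspDatumStatement (X : Model) : Prop :=
  ∃ (e₀ : ℕ) (A : CosetDatum ℂ ↥X.F X.Γ (X.j)⁻¹ ModularGroup.T e₀), 0 < e₀ ∧
    ∀ (γ : SL(2, ℤ)) (f : ↥X.F) (h : ℍ → ℂ), f ≠ 0 → Rep X h f →
      A.val (A.σ γ f) = cuspOrd e₀ (fun z => h (γ⁻¹ • z))

/-! ### Mid-level packages (the conjuncts of `TorsionCharStatement`) -/

/-- **[A-FWD]** every torsion class has a character. -/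
def ForwardStatement (X : Model) : Prop :=
  ∀ m : ℕ, 0 < m → ∀ x : Pic0 ℂ ↥X.F, x ∈ Pic0.torsion ℂ ↥X.F m →
    ∃ χ, TorsionCharRel X m x χ

/-- **[A-UNIQ]** the character of a class is unique. -/
def UniqueStatement (X : Model) : Prop :=
  ∀ m : ℕ, 0 < m → ∀ x χ χ', TorsionCharRel X m x χ → TorsionCharRel X m x χ' → χ = χ'

/-- **[A-ADM]** related pairs are admissible. -/
def AdmissibleStatement (X : Model) : Prop :=
  ∀ m : ℕ, 0 < m → ∀ x χ, TorsionCharRel X m x χ →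
    x ∈ Pic0.torsion ℂ ↥X.F m ∧ χ ^ m = 1 ∧ IsParEllTrivial X χ

/-- **[A-ADD]** additivity. -/
def AdditiveStatement (X : Model) : Prop :=
  ∀ m : ℕ, 0 < m → ∀ x x' χ χ', TorsionCharRel X m x χ → TorsionCharRel X m x' χ' →
    TorsionCharRel X m (x + x') (χ * χ')

/-- **[A-INJ]** injectivity. -/
def InjectiveStatement (X : Model) : Prop :=
  ∀ m : ℕ, 0 < m → ∀ x, TorsionCharRel X m x 1 → x = 0

/-- **[A-SURJ]** surjectivity. -/
def SurjectiveStatement (X : Model) : Prop :=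
  ∀ m : ℕ, 0 < m → ∀ χ : ↥X.Γ →* ℂˣ, χ ^ m = 1 →
    IsParEllTrivial X χ → ∃ x, TorsionCharRel X m x χ

theorem torsionChar_of_parts (X : Model) (h1 : ForwardStatement X)
    (h2 : UniqueStatement X) (h3 : AdmissibleStatement X) (h4 : AdditiveStatement X)
    (h5 : InjectiveStatement X) (h6 : SurjectiveStatement X) : TorsionCharStatement X :=
  fun m hm => ⟨h1 m hm, h2 m hm, h3 m hm, h4 m hm, h5 m hm, h6 m hm⟩

end Fermat.Agent.H23.ES1A

end
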