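/-
P-ES1 / ES1-A (helper23): GENERIC form of helper94's ES-A interfaces (Kummer characters) for an
arbitrary model `X = (Γ, F, R, j)`.  Definitions and statement-Props only.

Every definition is the verbatim generalisation of the definition of the same name in
`Fermat.Agent.H94.EsA` (`.Interfaces`, `.Interfaces2`, `.AssemblyMap`), with
`Gamma0 N ↦ X.Γ`, `FC N ↦ X.F`; `H94.EsA.IsParEllTrivial` is called `IsParEllTrivialSq` here
(`trace ^ 2 ≤ 4` form; `ES1A.IsParEllTrivial` is the `|trace| ≤ 2` form), and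
`H94.EsA.CharOfRootStatement` is called `CharOfRootStatementK`.

The statements of `Fermat.Agent.H94.EsA` which do not mention the group or the field
(`IsHol`, `HasModerateGrowth`, `RootStatement`, `LocalEllStatement`, `LocalCuspStatement`,
`ParabolicConjStatement`, `EllipticFixedStatement`) are used verbatim from there.
-/
import Fermat.Agent.H23.ES1A.Parts
import Fermat.Agent.H94.EsA.Interfaces2

set_option autoImplicit false

noncomputable section

open UpperHalfPlane AlgebraicCurve Function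
open scoped MatrixGroups Manifold Topology

namespace Fermat.Agent.H23.ES1A

open Fermat.Agent.H94.EsA (IsHol HasModerateGrowth)

/-- Characters of `Γ`. -/
abbrev Char0 (X : Model) : Type := ↥X.Γ →* ℂˣ


/-- The integer trace of an element of `Γ`. -/
def trZ {X : Model} (γ : ↥X.Γ) : ℤ :=
  ((γ : SL(2, ℤ)) : Matrix (Fin 2) (Fin 2) ℤ).trace

/-- `χ` is trivial on `±1`, on the elliptic and on the parabolic elements of `Γ`
(the elements with `trace ^ 2 ≤ 4`). -/
def IsParEllTrivialSq {X : Model} (χ : Char0 X) : Prop :=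
  ∀ γ : ↥X.Γ, trZ γ ^ 2 ≤ 4 → χ γ = 1

/-- The group of *Kummer characters* of exponent `m`: characters of `Γ` killed by `m` and
trivial on `±1`, elliptic and parabolic elements.  This is
`Hom(H₁(the model, ℤ), μ_m)`. -/
def kummerChars (X : Model) (m : ℕ) : Subgroup (Char0 X) where
  carrier := {χ | IsParEllTrivialSq χ ∧ χ ^ m = 1}
  one_mem' := ⟨fun _ _ => rfl, one_pow m⟩
  mul_mem' := by
    rintro χ ψ ⟨h1, h2⟩ ⟨h3, h4⟩
    refine ⟨fun γ hγ => ?_, by simp [mul_pow, h2, h4]⟩
    rw [MonoidHom.mul_apply, h1 γ hγ, h3 γ hγ, one_mul]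
  inv_mem' := by
    rintro χ ⟨h1, h2⟩
    refine ⟨fun γ hγ => ?_, by simp [inv_pow, h2]⟩
    rw [MonoidHom.inv_apply, h1 γ hγ, inv_one]

theorem mem_kummerChars {X : Model} {m : ℕ} {χ : Char0 X} :
    χ ∈ kummerChars X m ↔ IsParEllTrivialSq χ ∧ χ ^ m = 1 := Iff.rfl

/-- `g` is a holomorphic `m`-th root on `ℍ` of the function with `q`-expansion `f`, and it
transforms under `Γ` by the character `χ`. -/
def IsKummerRoot (X : Model) (m : ℕ) (f : LaurentSeries ℂ) (χ : Char0 X) (g : ℍ → ℂ) : Prop :=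
  MDiff g ∧ Fermat.Agent.H44.LaurentRel (g ^ m) f ∧
    ∀ (γ : ↥X.Γ) (z : ℍ),
      g ((γ : SL(2, ℤ)) • z) = ((χ γ : ℂˣ) : ℂ) * g z

/-- `χ` is the Kummer character of (the holomorphic function with `q`-expansion) `f`. -/
def IsKummerCharOf (X : Model) (m : ℕ) (f : LaurentSeries ℂ) (χ : Char0 X) : Prop :=
  ∃ g : ℍ → ℂ, IsKummerRoot X m f χ g

/-- `f ≠ 0` and its divisor is divisible by `m`. -/
def IsDivisible (X : Model) (m : ℕ) (f : ↥X.F) : Prop :=
  f ≠ 0 ∧ ∀ P : Place ℂ ↥X.F, (m : ℤ) ∣ P.ord f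

/-! ### The statements of ES-A -/

/-- **A-HOL**: every class modulo `m`-th powers has a representative that is holomorphic on `ℍ`. -/
def HolRepStatement (X : Model) : Prop :=
  ∀ (m : ℕ), 0 < m → ∀ f : ↥X.F, f ≠ 0 → ∃ s : ↥X.F, s ≠ 0 ∧
    IsHol ((f * s ^ m : ↥X.F) : LaurentSeries ℂ)

/-- **A-EX** (root extraction + local analysis at elliptic points and cusps): a holomorphic
`m`-divisible function has a Kummer character, and it lies in `kummerChars X m`. -/
def KummerExistsStatement (X : Model) : Prop :=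
  ∀ (m : ℕ), 0 < m → ∀ f : ↥X.F, IsDivisible X m f → IsHol (f : LaurentSeries ℂ) →
    ∃ χ : Char0 X, χ ∈ kummerChars X m ∧ IsKummerCharOf X m (f : LaurentSeries ℂ) χ

/-- **A-UNIQ**: the Kummer character is unique. -/
def KummerUniqueStatement (X : Model) : Prop :=
  ∀ (m : ℕ), 0 < m → ∀ (f : LaurentSeries ℂ), f ≠ 0 → ∀ χ χ' : Char0 X,
    IsKummerCharOf X m f χ → IsKummerCharOf X m f χ' → χ = χ'

/-- **A-KER** (injectivity; uses "modular functions are in the function field"): trivial Kummer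
character implies `m`-th power in the function field. -/
def KummerKernelStatement (X : Model) : Prop :=
  ∀ (m : ℕ), 0 < m → ∀ f : ↥X.F, f ≠ 0 →
    IsKummerCharOf X m (f : LaurentSeries ℂ) 1 → ∃ x : ↥X.F, x ^ m = f

/-- **A-SURJ** (Eisenstein series with character): every Kummer character is the Kummer
character of a holomorphic `m`-divisible function. -/
def KummerSurjStatement (X : Model) : Prop :=
  ∀ (m : ℕ), 0 < m → ∀ χ : Char0 X, χ ∈ kummerChars X m →
    ∃ f : ↥X.F, IsDivisible X m f ∧ IsKummerCharOf X m (f : LaurentSeries ℂ) χ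

/-- **A-MF** ("modular functions of level `X` that are holomorphic on `ℍ` lie in the function
field"): a holomorphic `Γ`-invariant function on `ℍ` all of whose `SL(2,ℤ)`-translates have
at most exponential growth at `i∞` has its `q`-expansion in `F`. -/
def ModularFunctionStatement (X : Model) : Prop :=
  ∀ h : ℍ → ℂ, MDiff h →
    (∀ (γ : ↥X.Γ) (z : ℍ), h ((γ : SL(2, ℤ)) • z) = h z) →
    HasModerateGrowth h →
    ∃ x : ↥X.F, Fermat.Agent.H44.LaurentRel h (x : LaurentSeries ℂ)

/-- **A-GROW** (converse of A-MF): the holomorphic functions with `q`-expansion in `F` are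
`Γ`-invariant of moderate growth. -/
def InvariantGrowthStatement (X : Model) : Prop :=
  ∀ (x : ↥X.F) (h : ℍ → ℂ), Fermat.Agent.H44.LaurentRel h (x : LaurentSeries ℂ) →
    (∀ (γ : ↥X.Γ) (z : ℍ), h ((γ : SL(2, ℤ)) • z) = h z) ∧
    HasModerateGrowth h

/-- **A-CHAR** (identity theorem): if `g ^ m` is `Γ`-invariant then `g` transforms by a
character with values in the `m`-th roots of unity. -/
def CharOfRootStatementK (X : Model) : Prop :=
  ∀ (m : ℕ), 0 < m → ∀ g : ℍ → ℂ, MDiff g → g ≠ 0 →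
    (∀ (γ : ↥X.Γ) (z : ℍ), g ((γ : SL(2, ℤ)) • z) ^ m = g z ^ m) →
    ∃ χ : Char0 X, χ ^ m = 1 ∧
      ∀ (γ : ↥X.Γ) (z : ℍ),
        g ((γ : SL(2, ℤ)) • z) = ((χ γ : ℂˣ) : ℂ) * g z



/-- **A-EIS** (Eisenstein series with character; deliverable of the analytic block): for every
character `χ` of `Γ` with values of norm one that is trivial on the elements `± T^k` of
`Γ` (the stabilizer of `i∞`) there is a nonzero holomorphic function `G` on `ℍ` of moderate
growth with `G (γ z) = χ γ * G z`.  (Take `G = E_χ · E₄² / Δ` with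
`E_χ z = ½ ∑_{(c,d)} conj χ(γ_{c,d}) (c z + d)⁻⁴` over the bottom rows of `Γ`.) -/
def TwistedFunctionStatement (X : Model) : Prop :=
  ∀ χ : Char0 X, (∀ γ, ‖((χ γ : ℂˣ) : ℂ)‖ = 1) →
    (∀ γ : ↥X.Γ,
      ((γ : SL(2, ℤ)) : Matrix (Fin 2) (Fin 2) ℤ) 1 0 = 0 → χ γ = 1) →
    ∃ G : ℍ → ℂ, MDiff G ∧ G ≠ 0 ∧ HasModerateGrowth G ∧
      ∀ (γ : ↥X.Γ) (z : ℍ),
        G ((γ : SL(2, ℤ)) • z) = ((χ γ : ℂˣ) : ℂ) * G z

/-- **A-FIN**: the group of Kummer characters is finite. -/
def KummerCharsFiniteStatement (X : Model) : Prop :=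
  ∀ m : ℕ, 0 < m → Finite ↥(kummerChars X m)

/-- The subgroup of `m`-divisible units of the function field. -/
def divisibleUnits (X : Model) (m : ℕ) : Subgroup (↥X.F)ˣ where
  carrier := {u | ∀ P : Place ℂ ↥X.F, (m : ℤ) ∣ P.ord (u : ↥X.F)}
  one_mem' := fun P => by simp [Place.ord_one]
  mul_mem' := by
    intro u v hu hv P
    rw [Units.val_mul, Place.ord_mul P u.ne_zero v.ne_zero]
    exact dvd_add (hu P) (hv P)
  inv_mem' := by
    intro u hu P
    rw [Units.val_inv_eq_inv_val, Place.ord_inv]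
    exact (dvd_neg).mpr (hu P)

/-- **ES-A MAIN**: the Kummer map.  There is a surjective group homomorphism from the
`m`-divisible units of `F` onto the Kummer characters, whose kernel is the group of `m`-th
powers, and which is computed by holomorphic roots: if `u` is holomorphic on `ℍ` then
`κ u` is the Kummer character of `u`. -/
def KummerMapStatement (X : Model) : Prop :=
  ∀ m : ℕ, 0 < m → ∃ κ : ↥(divisibleUnits X m) →* ↥(kummerChars X m),
    Function.Surjective κ ∧
    (∀ u : ↥(divisibleUnits X m), κ u = 1 ↔ ∃ x : (↥X.F)ˣ, x ^ m = (u : (↥X.F)ˣ)) ∧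
    (∀ u : ↥(divisibleUnits X m), IsHol (((u : (↥X.F)ˣ) : ↥X.F) : LaurentSeries ℂ) →
      IsKummerCharOf X m (((u : (↥X.F)ˣ) : ↥X.F) : LaurentSeries ℂ)
        ((κ u : ↥(kummerChars X m)) : Char0 X))

/-- **A-FRAC**: every element of the function field is a quotient of two holomorphic elements. -/
def FracHolStatement (X : Model) : Prop :=
  ∀ f : ↥X.F, ∃ r s : ↥X.F, s ≠ 0 ∧ IsHol (r : LaurentSeries ℂ) ∧
    IsHol (s : LaurentSeries ℂ) ∧ f * s = r

end Fermat.Agent.H23.ES1A

end
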