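/-
P-ES1 / ES1-A (helper23): basic generic facts about a model `X = (Γ, F, R, j)`:

* `exists_pow_conj_mem` : a finite-index subgroup contains a fixed positive power of every
  conjugate of every element (replaces `γ T^N γ⁻¹ ∈ Γ₀(N)`);
* `Model.IsModular.exists_period` : the same for `T` in a modular model;
* `kummerCharsFinite` : **[A-FIN]** the group of Kummer characters is finite
  (generic form of `Fermat.Agent.H50.kummerCharsFinite`).
-/
import Fermat.Agent.H23.ES1A.KummerDefs
import Fermat.Agent.H50.EsAFin

set_option autoImplicit false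

noncomputable section

open AlgebraicCurve UpperHalfPlane
open scoped MatrixGroups Manifold

namespace Fermat.Agent.H23.ES1A

/-- A finite-index subgroup of `SL(2, ℤ)` contains a fixed positive power of every conjugate of
every element. -/
theorem exists_pow_conj_mem (Γ : Subgroup SL(2, ℤ)) [Γ.FiniteIndex] :
    ∃ e : ℕ, 0 < e ∧ ∀ γ g : SL(2, ℤ), γ * g ^ e * γ⁻¹ ∈ Γ := by
  have : Γ.normalCore.FiniteIndex := inferInstance
  refine ⟨Γ.normalCore.index, Nat.pos_of_ne_zero Subgroup.FiniteIndex.index_ne_zero,
    fun γ g => ?_⟩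
  have h1 : g ^ Γ.normalCore.index ∈ Γ.normalCore := Subgroup.pow_index_mem _ g
  have h2 : γ * g ^ Γ.normalCore.index * γ⁻¹ ∈ Γ.normalCore :=
    (Subgroup.normalCore_normal Γ).conj_mem _ h1 γ
  exact Subgroup.normalCore_le Γ h2

/-- In a modular model, a fixed positive power of `T` lies in every conjugate of `Γ`. -/
theorem Model.IsModular.exists_period {X : Model} (hX : X.IsModular) :
    ∃ e : ℕ, 0 < e ∧ ∀ γ : SL(2, ℤ), γ * ModularGroup.T ^ e * γ⁻¹ ∈ X.Γ := by
  have := hX.finiteIndex
  obtain ⟨e, he, h⟩ := exists_pow_conj_mem X.Γ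
  exact ⟨e, he, fun γ => h γ ModularGroup.T⟩

/-- The coset space of a modular model is finite. -/
theorem Model.IsModular.finite_quotient {X : Model} (hX : X.IsModular) :
    Finite (SL(2, ℤ) ⧸ X.Γ) := by
  have := hX.finiteIndex
  exact Subgroup.finite_quotient_of_finiteIndex

/-- The group of a modular model is finitely generated. -/
theorem Model.IsModular.fg {X : Model} (hX : X.IsModular) : Group.FG ↥X.Γ := by
  have := hX.finiteIndex
  have := Fermat.Agent.H50.sl2Z_fg
  exact Subgroup.fg_of_index_ne_zero _

/-- **[A-FIN]** the group of Kummer characters of exponent `m` of a modular model is finite. -/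
theorem kummerCharsFinite (X : Model) (hX : X.IsModular) : KummerCharsFiniteStatement X := by
  intro m hm
  have := hX.fg
  have := Fermat.Agent.H50.finite_torsion_chars ↥X.Γ ℂ m hm
  let F : ↥(kummerChars X m) → {χ : ↥X.Γ →* ℂˣ // χ ^ m = 1} := fun χ => ⟨χ.1, χ.2.2⟩
  apply Finite.of_injective F
  intro χ ψ h
  apply Subtype.ext
  have h' : (F χ).1 = (F ψ).1 := congrArg Subtype.val h
  exact h'

end Fermat.Agent.H23.ES1A

end
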