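/-
P-ES1 / ES1-A (helper23): assembly of `PlacesStatement` for an arbitrary model
(generic form of `Fermat.Agent.H23.EsA.PlacesA/PlacesC`; `PlacesB` is generic already).
-/
import Fermat.Agent.H23.ES1A.Basic
import Fermat.Agent.H23.EsA.PlacesC

set_option autoImplicit false

noncomputable section

open AlgebraicCurve UpperHalfPlane IntermediateField
open scoped MatrixGroups Manifold

namespace Fermat.Agent.H23.ES1A

open Fermat.Agent.H23 (jfun)
open Fermat.Agent.H23.EsA (ModerateGrowth GrowthAtInfty cuspOrd CosetDatum CosetPlace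
  LocalCountingRefinedStatement OrderMoebiusStatement CuspPeriodStatement
  place_eq_of_proportional order_nat_of_formula denom_mul_SL denom_conj_pow
  exists_cosetPlace exists_cosetPlace_of_place)

variable (X : Model)

/-- The multiplier clause of `IsPointPlace` follows from the order formula. -/
theorem mult_clause (hX : X.IsModular)
    (z₀ : ℍ) (v : Place ℂ ↥X.F) (s : ℕ)
    (hord : ∀ (f : ↥X.F) (h : ℍ → ℂ), f ≠ 0 → Rep X h f →
      meromorphicOrderAt (h ∘ ofComplex) (z₀ : ℂ) = (((s : ℤ) * v.ord f : ℤ) : WithTop ℤ)) :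
    ∀ γ ∈ X.Γ, γ • z₀ = z₀ → (denom γ z₀ ^ 2) ^ s = 1 := by
  intro γ hγ hfix
  obtain ⟨π, -, hπ⟩ := Fermat.Agent.H23.exists_irreducible_ord_one v
  have hπ0 : ((π : ↥X.F)) ≠ 0 := by
    intro h0
    rw [h0, Place.ord_zero] at hπ
    exact zero_ne_one hπ
  obtain ⟨r, s₁, hr, hs₁, hs₁0, hrs⟩ := hX.frac (π : ↥X.F)
  have hr0 : r ≠ 0 := by
    rw [← hrs]; exact mul_ne_zero hπ0 hs₁0
  obtain ⟨R, hR, hRmd, hRinv, -⟩ := hX.rep r hr
  obtain ⟨S, hS, hSmd, hSinv, -⟩ := hX.rep s₁ hs₁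
  have h1 := hord r R hr0 hR
  have h2 := hord s₁ S hs₁0 hS
  have hn1 := order_nat_of_formula hRmd h1
  have hn2 := order_nat_of_formula hSmd h2
  have hvr : v.ord r = 1 + v.ord s₁ := by
    rw [← hrs, Place.ord_mul v hπ0 hs₁0, hπ]
  have e1 : (((s : ℤ) * v.ord r).toNat : ℤ) = (s : ℤ) * v.ord r := Int.toNat_of_nonneg hn1
  have e2 : (((s : ℤ) * v.ord s₁).toNat : ℤ) = (s : ℤ) * v.ord s₁ := Int.toNat_of_nonneg hn2
  have k1 := Fermat.Agent.H61.denom_sq_pow_eq_one hRmd γ z₀ hfix (fun z => hRinv γ hγ z)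
    ((s : ℤ) * v.ord r).toNat (by rw [h1, ← e1]; rfl)
  have k2 := Fermat.Agent.H61.denom_sq_pow_eq_one hSmd γ z₀ hfix (fun z => hSinv γ hγ z)
    ((s : ℤ) * v.ord s₁).toNat (by rw [h2, ← e2]; rfl)
  have e3 : ((s : ℤ) * v.ord r).toNat = s + ((s : ℤ) * v.ord s₁).toNat := by
    have : (((s : ℤ) * v.ord r).toNat : ℤ) = ((s + ((s : ℤ) * v.ord s₁).toNat : ℕ) : ℤ) := by
      rw [Nat.cast_add, e1, e2, hvr]; ring
    exact_mod_cast this
  rw [e3, pow_add, k2, mul_one] at k1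
  exact k1

/-- The function `z ↦ j(z) - j(z₀)` represents `j - j(z₀)`. -/
theorem rep_j_sub (hX : X.IsModular) (a : ℂ) :
    Rep X (fun z => jfun z + -a)
      (X.j - algebraMap ℂ ↥X.F a) := by
  have h1 := hX.j_rep
  have h2 := Fermat.Agent.H44.laurentRel_const (-a)
  have h3 := Fermat.Agent.H44.LaurentRel.add h1 h2
  unfold Rep
  have e : ((X.j - algebraMap ℂ ↥X.F a : ↥X.F) : LaurentSeries ℂ)
      = ((X.j : ↥X.F) : LaurentSeries ℂ) + HahnSeries.C (-a) := by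
    have h : ((algebraMap ℂ ↥X.F a : ↥X.F) : LaurentSeries ℂ)
        = algebraMap ℂ (LaurentSeries ℂ) a := rfl
    push_cast
    rw [ModularCurve.algebraMap_laurentSeries_eq_single, map_neg, sub_eq_add_neg]
    rfl
  rw [e]
  exact h3


theorem finite_quot_of_degree (hdeg : DegreeStatement X) :
    Finite (SL(2, ℤ) ⧸ X.Γ) := by
  obtain ⟨-, hfd, hrank⟩ := hdeg
  have hpos : 0 < Module.finrank ℂ⟮X.j⟯ ↥X.F := Module.finrank_pos
  exact Nat.finite_of_card_ne_zero (by rw [← hrank]; exact hpos.ne')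

/-- A function representing a nonzero element is nonzero. -/
theorem rep_ne_zero {h : ℍ → ℂ} {f : ↥X.F} (hR : Rep X h f) (hf : f ≠ 0) : h ≠ 0 := by
  rintro rfl
  have h0 := Fermat.Agent.H44.laurentRel_zero
  have := Fermat.Agent.H44.LaurentRel.unique_right hR h0
  exact hf (Subtype.ext this)

/-- (Pa) every point of `ℍ` has a place. -/
theorem places_point (hX : X.IsModular)
    (hdeg : DegreeStatement X) (hemb : PointEmbeddingStatement X) (z₀ : ℍ) :
    ∃ v s, IsPointPlace X z₀ v s := by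
  obtain ⟨M, instM, val, σ, hconst, hval⟩ := hemb z₀
  set a : ℂ := jfun z₀ with ha
  have hy0 : X.j - algebraMap ℂ ↥X.F a ≠ 0 := by
    intro h0
    apply Fermat.Agent.H23.transcendental_sub_const hdeg.1 a
    rw [h0]
    exact isAlgebraic_zero
  have hR := rep_j_sub X hX a
  have hv := hval _ _ hy0 hR
  have hmd : MDiff (fun z => jfun z + -a) :=
    Fermat.Agent.H44.LaurentRel.mdifferentiable hR
  have han := Fermat.Agent.H61.analyticAt_comp_ofComplex hmd z₀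
  have hne : val (σ (X.j - algebraMap ℂ ↥X.F a)) ≠ 0 := by
    rw [hv, han.meromorphicOrderAt_eq]
    intro h0
    have h1 : analyticOrderAt ((fun z => jfun z + -a) ∘ ofComplex) (z₀ : ℂ) = 0 := by
      cases h : analyticOrderAt ((fun z => jfun z + -a) ∘ ofComplex) (z₀ : ℂ) with
      | top => rw [h] at h0; simp at h0
      | coe n =>
        rw [h] at h0
        have : ((n : ℤ) : WithTop ℤ) = 0 := h0
        have hn : n = 0 := by exact_mod_cast this
        rw [hn]; rfl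
    rw [han.analyticOrderAt_eq_zero] at h1
    apply h1
    simp [ha]
  obtain ⟨v, m, hm, hσ⟩ := Fermat.Agent.H49.inducedPlace ℂ ↥X.F M val σ hconst ⟨_, hy0, hne⟩
  have hord : ∀ (f : ↥X.F) (h : ℍ → ℂ), f ≠ 0 → Rep X h f →
      meromorphicOrderAt (h ∘ ofComplex) (z₀ : ℂ) = (((m : ℤ) * v.ord f : ℤ) : WithTop ℤ) :=
    fun f h hf hR => (hval f h hf hR).symm.trans (hσ f hf)
  exact ⟨v, m, hm, hord, mult_clause X hX z₀ v m hord⟩

/-- The cusp place attached to a coset. -/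
theorem isCuspPlace_of_cosetPlace (hreg : RepRegularStatement X) (hper : CuspPeriodStatement)
    (e₀ : ℕ) (A : CosetDatum ℂ ↥X.F (X.Γ)
      (X.j)⁻¹ ModularGroup.T e₀)
    (hA : ∀ (γ : SL(2, ℤ)) (f : ↥X.F) (h : ℍ → ℂ), f ≠ 0 → Rep X h f →
      A.val (A.σ γ f) = cuspOrd e₀ (fun z => h (γ⁻¹ • z)))
    (γ : SL(2, ℤ)) (v : Place ℂ ↥X.F) (m w : ℕ) (hP : CosetPlace A γ v m w) :
    IsCuspPlace X γ⁻¹ v w := by
  obtain ⟨hm, hw, hvy, hmw, hσ, hk⟩ := hP
  refine ⟨hw, fun k => ?_, fun f h hf hR => ?_⟩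
  · rw [inv_inv]; exact hk k
  · obtain ⟨hinv, hgrow⟩ := hreg f h hR
    have hmd : MDiff h := Fermat.Agent.H44.LaurentRel.mdifferentiable hR
    have hHmd : MDiff (fun z => h (γ⁻¹ • z)) := hmd.comp (Fermat.Agent.H61.mdiff_smul_SL γ⁻¹)
    have hH0 : (fun z => h (γ⁻¹ • z)) ≠ 0 := by
      intro h0
      apply rep_ne_zero X hR hf
      funext z
      have := congrFun h0 (γ • z)
      simpa [← mul_smul] using this
    have hmem : γ⁻¹ * ModularGroup.T ^ w * γ ∈ X.Γ := by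
      have := (hk (w : ℤ)).mpr dvd_rfl
      rwa [zpow_natCast] at this
    have hHper : ∀ z : ℍ, (fun z => h (γ⁻¹ • z)) (ModularGroup.T ^ w • z)
        = (fun z => h (γ⁻¹ • z)) z := by
      intro z
      have h1 := hinv _ hmem (γ⁻¹ • z)
      have h2 : (γ⁻¹ * ModularGroup.T ^ w * γ) • (γ⁻¹ • z) = γ⁻¹ • (ModularGroup.T ^ w • z) := by
        rw [← mul_smul, ← mul_smul]
        congr 1
        group
      rw [h2] at h1
      exact h1
    have hHgrow : GrowthAtInfty (fun z => h (γ⁻¹ • z)) := hgrow γ⁻¹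
    obtain ⟨n, hn1, hn2⟩ := hper w m hw hm _ hHmd hH0 hHper hHgrow
    have h3 := hA γ f h hf hR
    rw [hσ f hf] at h3
    have h4 : w * m = e₀ := by rw [mul_comm]; exact hmw
    rw [h4, ← h3] at hn2
    have h5 : (m : ℤ) * v.ord f = (m : ℤ) * n := by exact_mod_cast hn2
    have hm' : (m : ℤ) ≠ 0 := by exact_mod_cast hm.ne'
    rw [hn1, mul_left_cancel₀ hm' h5]

/-- The point place attached to a coset. -/
theorem isPointPlaceStrong_of_cosetPlace (hX : X.IsModular)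
    (hmoeb : OrderMoebiusStatement) (a : ℂ) (z₀ : ℍ) (g : SL(2, ℤ)) (e₀ : ℕ)
    (A : CosetDatum ℂ ↥X.F (X.Γ)
      (X.j - algebraMap ℂ ↥X.F a) g e₀)
    (hfix : g • z₀ = z₀) (hprim : IsPrimitiveRoot (denom g z₀ ^ 2) e₀)
    (hA : ∀ (γ : SL(2, ℤ)) (f : ↥X.F) (h : ℍ → ℂ), f ≠ 0 → Rep X h f →
      A.val (A.σ γ f) = meromorphicOrderAt ((fun z => h (γ⁻¹ • z)) ∘ ofComplex) (z₀ : ℂ))
    (γ : SL(2, ℤ)) (v : Place ℂ ↥X.F) (m w : ℕ) (hP : CosetPlace A γ v m w) :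
    IsPointPlaceStrong X (γ⁻¹ • z₀) v m := by
  obtain ⟨hm, hw, hvy, hmw, hσ, hk⟩ := hP
  have hord : ∀ (f : ↥X.F) (h : ℍ → ℂ), f ≠ 0 → Rep X h f →
      meromorphicOrderAt (h ∘ ofComplex) ((γ⁻¹ • z₀ : ℍ) : ℂ)
        = (((m : ℤ) * v.ord f : ℤ) : WithTop ℤ) := by
    intro f h hf hR
    have hmd : MDiff h := Fermat.Agent.H44.LaurentRel.mdifferentiable hR
    rw [← hmoeb h hmd γ⁻¹ z₀, ← hA γ f h hf hR, hσ f hf]
  refine ⟨⟨hm, hord, mult_clause X hX _ v m hord⟩, fun k hkk => ?_⟩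
  have hmem : γ⁻¹ * g ^ w * γ ∈ X.Γ := by
    have := (hk (w : ℤ)).mpr dvd_rfl
    rwa [zpow_natCast] at this
  obtain ⟨hβfix, hβden⟩ := denom_conj_pow γ g z₀ hfix w
  have h1 := hkk _ hmem hβfix
  rw [hβden] at h1
  have h2 : (denom g z₀ ^ 2) ^ ((w : ℤ) * k) = 1 := by
    rw [zpow_mul, zpow_natCast, ← pow_mul, mul_comm 2 w, pow_mul]
    exact h1
  have h3 := (hprim.zpow_eq_one_iff_dvd _).mp h2
  have h4 : ((m * w : ℕ) : ℤ) ∣ (w : ℤ) * k := by rw [hmw]; exact h3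
  rw [Nat.cast_mul, mul_comm (m : ℤ)] at h4
  exact (mul_dvd_mul_iff_left (by exact_mod_cast hw.ne')).mp h4

/-- **[PLACES]** assembly. -/
theorem places_of_parts (hX : X.IsModular)
    (hreg : RepRegularStatement X) (hdeg : DegreeStatement X)
    (hemb : PointEmbeddingStatement X) (hpt : PointDatumStatement X)
    (hcusp : CuspDatumStatement X) (hLCR : LocalCountingRefinedStatement)
    (hmoeb : OrderMoebiusStatement) (hper : CuspPeriodStatement) : PlacesStatement X := by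
  classical
  have hfin := finite_quot_of_degree X hdeg
  let _ : Fintype (SL(2, ℤ) ⧸ X.Γ) := Fintype.ofFinite _
  obtain ⟨htr, hfd, hrank⟩ := hdeg
  have hrankF : Module.finrank ℂ⟮X.j⟯ ↥X.F
      = Fintype.card (SL(2, ℤ) ⧸ X.Γ) := by
    rw [hrank, Nat.card_eq_fintype_card]
  -- data at the cusp
  obtain ⟨e₀, Ac, hNpos, hAc⟩ := hcusp
  have htr_inf := Fermat.Agent.H23.transcendental_inv htr
  have hadj_inf := Fermat.Agent.H23.adjoin_inv (K := ℂ) (X.j)
  have hfd_inf : FiniteDimensional ℂ⟮(X.j)⁻¹⟯ ↥X.F := by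
    rw [hadj_inf]; exact hfd
  have hrank_inf : Module.finrank ℂ⟮(X.j)⁻¹⟯ ↥X.F
      = Fintype.card (SL(2, ℤ) ⧸ X.Γ) := by
    rw [hadj_inf]; exact hrankF
  have hdeg1 : ∀ v : Place ℂ ↥X.F, v.deg = 1 :=
    (Fermat.Agent.H29.fundamentalIdentity ℂ ↥X.F _ htr hfd).1
  refine ⟨fun z₀ => places_point X hX ⟨htr, hfd, hrank⟩ hemb z₀, fun δ => ?_, fun v => ?_⟩
  · obtain ⟨v, m, w, hP⟩ := exists_cosetPlace hLCR Ac hNpos htr_inf hfd_inf hrank_inf δ⁻¹
    have := isCuspPlace_of_cosetPlace X hreg hper e₀ Ac hAc δ⁻¹ v m w hP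
    rw [inv_inv] at this
    exact ⟨v, w, this⟩
  · rcases Fermat.Agent.H23.exists_point hdeg1 htr v with hinf | ⟨a, ha⟩
    · right
      obtain ⟨γ, m, w, hP⟩ :=
        exists_cosetPlace_of_place hLCR Ac hNpos htr_inf hfd_inf hrank_inf v hinf
      exact ⟨γ⁻¹, w, isCuspPlace_of_cosetPlace X hreg hper e₀ Ac hAc γ v m w hP⟩
    · left
      obtain ⟨z₀, g, e₀, A, he, -, hfix, hprim, hA⟩ := hpt a
      have htr_a := Fermat.Agent.H23.transcendental_sub_const htr a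
      have hadj_a := Fermat.Agent.H23.adjoin_sub_const (K := ℂ) (X.j) a
      have hfd_a : FiniteDimensional
          ℂ⟮X.j - algebraMap ℂ ↥X.F a⟯ ↥X.F := by
        rw [hadj_a]; exact hfd
      have hrank_a : Module.finrank
          ℂ⟮X.j - algebraMap ℂ ↥X.F a⟯ ↥X.F
          = Fintype.card (SL(2, ℤ) ⧸ X.Γ) := by
        rw [hadj_a]; exact hrankF
      obtain ⟨γ, m, w, hP⟩ :=
        exists_cosetPlace_of_place hLCR A he htr_a hfd_a hrank_a v ha
      exact ⟨γ⁻¹ • z₀, m,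
        isPointPlaceStrong_of_cosetPlace X hX hmoeb a z₀ g e₀ A hfix hprim hA γ v m w hP⟩


end Fermat.Agent.H23.ES1A

end
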