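/-
P-ES1 / ES1-A (helper23): MAIN ASSEMBLY of the generic ES-A.  For every modular model
`X = (Γ, F, R, j)` (`X.IsModular`), given the point datum `PointDatumStatement X`:

* `degreeStatement`, `principalDivisorStatement`, `placesStatement`, `kummerMapStatement`,
  `torsionCharStatement`, `exists_torsion_equiv`, `finite_torsion_pic0`, `card_torsion_pic0`.

(`PointDatumStatement X` is row ES1A-PL2; `Fermat.Agent.H23.ES1A.Unconditional` removes it.)
-/
import Fermat.Agent.H23.ES1A.Places
import Fermat.Agent.H23.ES1A.Transfer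
import Fermat.Agent.H60.ES1A.Grow
import Fermat.Agent.H32.ES1A.PointEmbedding
import Fermat.Agent.H96.ES1A.CuspDatum
import Fermat.Agent.H12.ES1A.Degree
import Fermat.Agent.H19.ES1A.PrincipalDivisor
import Fermat.Agent.H5.ES1A.MF
import Fermat.Agent.H4.ES1A.Char
import Fermat.Agent.H37.ES1A.EisTwisted
import Fermat.Agent.H95.ES1A.AssemblyMap
import Fermat.Agent.H49.ES.LocalCountingRefined
import Fermat.Agent.H7.EsA.Loc2
import Fermat.Agent.H41.HolRootES
import Fermat.Agent.H50.EsALoc
import Fermat.Agent.H60.EsACuspStatements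
import Fermat.Agent.H60.EsAGrpStatements

set_option autoImplicit false

noncomputable section

open AlgebraicCurve UpperHalfPlane IntermediateField
open scoped MatrixGroups Manifold

namespace Fermat.Agent.H23.ES1A

variable (X : Model)

/-- **[DEG]** -/
theorem degree_of_pointDatum (hX : X.IsModular) (hPD : PointDatumStatement X) :
    DegreeStatement X :=
  Fermat.Agent.H12.ES1A.degree X hX hPD

/-- **[PD]** -/
theorem principalDivisor_of_pointDatum (hX : X.IsModular) (hPD : PointDatumStatement X) :
    PrincipalDivisorStatement X :=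
  Fermat.Agent.H19.ES1A.principalDivisor X (degree_of_pointDatum X hX hPD)

/-- **[PLACES]** -/
theorem places_of_pointDatum (hX : X.IsModular) (hPD : PointDatumStatement X) :
    PlacesStatement X :=
  places_of_parts X hX (Fermat.Agent.H60.ES1A.repRegular X hX) (degree_of_pointDatum X hX hPD)
    (Fermat.Agent.H32.ES1A.pointEmbedding X hX) hPD (Fermat.Agent.H96.ES1A.cuspDatum X hX)
    Fermat.Agent.H49.localCountingRefined
    Fermat.Agent.H7.EsA.orderMoebius
    Fermat.Agent.H7.EsA.cuspPeriod

/-- The Kummer statements. -/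
theorem kummer_of_pointDatum (hX : X.IsModular) (hPD : PointDatumStatement X) :
    FracHolStatement X ∧ InvariantGrowthStatement X ∧ KummerExistsStatement X ∧
    KummerUniqueStatement X ∧ KummerKernelStatement X ∧ KummerSurjStatement X := by
  have hDEG := degree_of_pointDatum X hX hPD
  have hGROW := Fermat.Agent.H60.ES1A.invariantGrowth X hX
  have hPL := places_of_pointDatum X hX hPD
  have hMF := Fermat.Agent.H5.ES1A.modularFunction X hX hDEG
  refine ⟨Fermat.Agent.H95.ES1A.fracHol_of_core X hX, hGROW, ?_,
    Fermat.Agent.H4.ES1A.kummerUnique X, ?_, ?_⟩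
  · exact Fermat.Agent.H95.ES1A.kummerExists_of_parts X hX Fermat.Agent.H41.rootStatement'
      (Fermat.Agent.H4.ES1A.charOfRootK X) hGROW hPL Fermat.Agent.H50.multiplierChar
      Fermat.Agent.H50.powOrder Fermat.Agent.H60.cuspRootStatement
      Fermat.Agent.H60.ellipticFixStatement Fermat.Agent.H60.parabolicFormStatement
  · exact Fermat.Agent.H95.ES1A.kummerKernel_of_parts X hMF hGROW
  · exact Fermat.Agent.H95.ES1A.kummerSurj_of_parts X (Fermat.Agent.H37.ES1A.twistedFunction X)
      hMF hPL Fermat.Agent.H50.multiplierChar Fermat.Agent.H50.powOrder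
      Fermat.Agent.H60.cuspPowStatement Fermat.Agent.H60.fixTraceStatement

/-- **ES1-A MAIN (Kummer map form)**. -/
theorem kummerMap_of_pointDatum (hX : X.IsModular) (hPD : PointDatumStatement X) :
    KummerMapStatement X := by
  obtain ⟨h1, h2, h3, h4, h5, h6⟩ := kummer_of_pointDatum X hX hPD
  exact Fermat.Agent.H95.ES1A.kummerMap_of_parts X h1 h2 h3 h4 h5 h6

/-- **ES1-A MAIN (Pic⁰ form)**. -/
theorem torsionChar_of_pointDatum (hX : X.IsModular) (hPD : PointDatumStatement X) :
    TorsionCharStatement X := by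
  obtain ⟨h1, h2, h3, h4, h5, h6⟩ := kummer_of_pointDatum X hX hPD
  exact torsionChar_of_kummer X (principalDivisor_of_pointDatum X hX hPD) h1 h2 h3 h4 h5 h6

/-- The `m`-torsion of `Pic⁰(F)` is finite. -/
theorem finite_torsion_of_pointDatum (hX : X.IsModular) (hPD : PointDatumStatement X)
    {m : ℕ} (hm : 0 < m) : Finite ↥(Pic0.torsion ℂ ↥X.F m) :=
  finite_torsion (torsionChar_of_pointDatum X hX hPD) (kummerCharsFinite X hX) hm

end Fermat.Agent.H23.ES1A

end
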