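/-
P-ES1 / ES1-A (helper23): the UNCONDITIONAL generic ES-A.

For every modular model `X = (Γ, F, R, j)`:

* `hX : X.IsModular` (the group contains `-1`): `degreeStatement`, `principalDivisorStatement`,
  `placesStatement`, `kummerMapStatement`, `torsionCharStatement`, `exists_torsion_equiv`,
  `finite_torsion_pic0`, `card_torsion_pic0`;
* `hX : X.IsModularPre` (the group need not contain `-1`, e.g. `Γ₁(M)`):
  `torsionCharStatement_pre`, `exists_torsion_equiv_pre`, `finite_torsion_pic0_pre`,
  `card_torsion_pic0_pre`, `kummerCharsFinite_pre`.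

The point datum (row ES1A-PL2) is `Fermat.Agent.H19.ES1A.pointDatum`.
-/
import Fermat.Agent.H23.ES1A.Main
import Fermat.Agent.H19.ES1A.PointDatum

set_option autoImplicit false

noncomputable section

open AlgebraicCurve UpperHalfPlane IntermediateField
open scoped MatrixGroups Manifold

namespace Fermat.Agent.H23.ES1A

variable (X : Model)

/-! ### Models whose group contains `-1` -/

/-- **[PL2]** the point datum. -/
theorem pointDatumStatement (hX : X.IsModular) : PointDatumStatement X :=
  Fermat.Agent.H19.ES1A.pointDatum X hX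

/-- **[DEG]** `[F : ℂ(j)] = [PSL₂(ℤ) : Γ̄]`. -/
theorem degreeStatement (hX : X.IsModular) : DegreeStatement X :=
  degree_of_pointDatum X hX (pointDatumStatement X hX)

/-- **[PD]** principal divisors have degree zero. -/
theorem principalDivisorStatement (hX : X.IsModular) : PrincipalDivisorStatement X :=
  principalDivisor_of_pointDatum X hX (pointDatumStatement X hX)

/-- **[PLACES]** the places of `F` are the points and the cusps of `Γ \ ℍ*`. -/
theorem placesStatement (hX : X.IsModular) : PlacesStatement X :=
  places_of_pointDatum X hX (pointDatumStatement X hX)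

/-- **ES1-A (Kummer map form)**. -/
theorem kummerMapStatement (hX : X.IsModular) : KummerMapStatement X :=
  kummerMap_of_pointDatum X hX (pointDatumStatement X hX)

/-- **ES1-A (Pic⁰ form)**: the `m`-torsion of `Pic⁰(F)` corresponds to the characters of `Γ` of
exponent `m` which are trivial on the parabolic and elliptic elements. -/
theorem torsionCharStatement (hX : X.IsModular) : TorsionCharStatement X :=
  torsionChar_of_pointDatum X hX (pointDatumStatement X hX)

/-- **ES1-A (bijection form)**. -/
theorem exists_torsion_equiv (hX : X.IsModular) {m : ℕ} (hm : 0 < m) :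
    ∃ e : ↥(Pic0.torsion ℂ ↥X.F m) ≃ ↥(kummerChars X m),
      (∀ x : ↥(Pic0.torsion ℂ ↥X.F m), TorsionCharRel X m (x : Pic0 ℂ ↥X.F)
        ((e x : ↥(kummerChars X m)) : ↥X.Γ →* ℂˣ)) ∧
      (∀ x y, e (x + y) = e x * e y) :=
  exists_equiv_of_torsionChar (torsionCharStatement X hX) hm

/-- The `m`-torsion of `Pic⁰(F)` is finite. -/
theorem finite_torsion_pic0 (hX : X.IsModular) {m : ℕ} (hm : 0 < m) :
    Finite ↥(Pic0.torsion ℂ ↥X.F m) :=
  finite_torsion_of_pointDatum X hX (pointDatumStatement X hX) hm

/-- The cardinality of the `m`-torsion of `Pic⁰(F)`. -/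
theorem card_torsion_pic0 (hX : X.IsModular) {m : ℕ} (hm : 0 < m) :
    Nat.card ↥(Pic0.torsion ℂ ↥X.F m) = Nat.card ↥(kummerChars X m) :=
  card_torsion (torsionCharStatement X hX) hm

/-! ### Models whose group need not contain `-1` -/

/-- **ES1-A (Pic⁰ form)** for a group which need not contain `-1`. -/
theorem torsionCharStatement_pre (hX : X.IsModularPre) : TorsionCharStatement X :=
  torsionChar_of_pm X (torsionCharStatement X.pm hX.pm)

/-- **ES1-A (bijection form)** for a group which need not contain `-1`. -/
theorem exists_torsion_equiv_pre (hX : X.IsModularPre) {m : ℕ} (hm : 0 < m) :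
    ∃ e : ↥(Pic0.torsion ℂ ↥X.F m) ≃ ↥(kummerChars X m),
      (∀ x : ↥(Pic0.torsion ℂ ↥X.F m), TorsionCharRel X m (x : Pic0 ℂ ↥X.F)
        ((e x : ↥(kummerChars X m)) : ↥X.Γ →* ℂˣ)) ∧
      (∀ x y, e (x + y) = e x * e y) :=
  exists_equiv_of_torsionChar (torsionCharStatement_pre X hX) hm

/-- The `m`-torsion of `Pic⁰(F)` is finite, for a group which need not contain `-1`. -/
theorem finite_torsion_pic0_pre (hX : X.IsModularPre) {m : ℕ} (hm : 0 < m) :
    Finite ↥(Pic0.torsion ℂ ↥X.F m) :=
  finite_torsion_pic0 X.pm hX.pm hm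

/-- The cardinality of the `m`-torsion of `Pic⁰(F)`, for a group which need not contain `-1`. -/
theorem card_torsion_pic0_pre (hX : X.IsModularPre) {m : ℕ} (hm : 0 < m) :
    Nat.card ↥(Pic0.torsion ℂ ↥X.F m) = Nat.card ↥(kummerChars X m) :=
  card_torsion (torsionCharStatement_pre X hX) hm

/-- The group of Kummer characters is finite, for a group which need not contain `-1`. -/
theorem kummerCharsFinite_pre (hX : X.IsModularPre) {m : ℕ} (hm : 0 < m) :
    Finite ↥(kummerChars X m) := by
  obtain ⟨e, -, -⟩ := exists_torsion_equiv_pre X hX hm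
  have := finite_torsion_pic0_pre X hX hm
  exact Finite.of_equiv _ e

end Fermat.Agent.H23.ES1A

end
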