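/-
P-ES1 / ES1-A (helper23): the final Pic⁰ form for an arbitrary model: `TorsionCharStatement X`
from the Kummer statements, the bijection with the Kummer characters and finiteness of the
torsion (generic form of `Fermat.Agent.H23.EsA.FinalB/FinalC`; `FinalA` is generic already).
-/
import Fermat.Agent.H23.ES1A.Basic
import Fermat.Agent.H23.EsA.FinalC

set_option autoImplicit false

noncomputable section

open AlgebraicCurve UpperHalfPlane IntermediateField
open scoped MatrixGroups Manifold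

namespace Fermat.Agent.H23.ES1A

open Fermat.Agent.H44 (LaurentRel)
open Fermat.Agent.H94.EsA (IsHol HasModerateGrowth laurentRel_pow abs_le_two_iff_sq_le)
open Fermat.Agent.H23.EsA (pic0_mk_eq_iff pic0_mk_eq_zero_iff pic0_mk_mem_torsion_iff divisorDiv
  divisorDiv_apply degree_divisorDiv)

variable {X : Model} {m : ℕ}

/-- The trace of an element of `Γ`. -/
theorem trZ_eq {X : Model} (γ : ↥X.Γ) :
    trZ γ = (γ : SL(2, ℤ)) 0 0 + (γ : SL(2, ℤ)) 1 1 := by
  rw [trZ, Matrix.trace_fin_two]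


/-- The two definitions of "parabolic-elliptic trivial" agree. -/
theorem isParEllTrivial_iff {X : Model} (χ : Char0 X) :
    IsParEllTrivialSq χ ↔ IsParEllTrivial X χ := by
  constructor
  · intro h γ hγ
    exact h γ (by rw [trZ_eq]; exact (abs_le_two_iff_sq_le _).mp hγ)
  · intro h γ hγ
    exact h γ (by rw [trZ_eq] at hγ; exact (abs_le_two_iff_sq_le _).mpr hγ)


/-- A-HOL from A-FRAC. -/
theorem holRep_of_fracHol (X : Model) (hF : FracHolStatement X) : HolRepStatement X := by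
  intro m hm f _
  obtain ⟨r, s, hs0, ⟨R, hR⟩, ⟨S, hS⟩, hfs⟩ := hF f
  refine ⟨s, hs0, R * S ^ (m - 1), ?_⟩
  have h1 : f * s ^ m = r * s ^ (m - 1) := by
    obtain ⟨k, rfl⟩ : ∃ k, m = k + 1 := ⟨m - 1, by omega⟩
    rw [pow_succ', ← mul_assoc, hfs]
    simp
  rw [h1]
  have := hR.mul (laurentRel_pow hS (m - 1))
  simpa using this


theorem coe_ne_zero {f : ↥X.F} (hf : f ≠ 0) : ((f : ↥X.F) : LaurentSeries ℂ) ≠ 0 :=
  fun h0 => hf (Subtype.ext h0)

/-- Multiplying by the `m`-th power of a holomorphic invariant function does not change the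
Kummer character. -/
theorem isKummerCharOf_mul_pow (hGROW : InvariantGrowthStatement X) {f : LaurentSeries ℂ}
    {χ : Char0 X} (h : IsKummerCharOf X m f χ) {a : ↥X.F} (ha : IsHol (a : LaurentSeries ℂ)) :
    IsKummerCharOf X m (f * (a : LaurentSeries ℂ) ^ m) χ := by
  obtain ⟨g, hgmd, hgrel, hgχ⟩ := h
  obtain ⟨A, hA⟩ := ha
  obtain ⟨hAinv, -⟩ := hGROW a A hA
  refine ⟨g * A, hgmd.mul hA.mdifferentiable, ?_, ?_⟩
  · rw [mul_pow]
    exact hgrel.mul (laurentRel_pow hA m)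
  · intro γ z
    rw [Pi.mul_apply, Pi.mul_apply, hgχ, hAinv, mul_assoc]

/-- **Independence**: if `f' = f t ^ m` then `f` and `f'` have the same Kummer character. -/
theorem kummerChar_indep (hm : 0 < m) (hFRAC : FracHolStatement X)
    (hGROW : InvariantGrowthStatement X) (hUNIQ : KummerUniqueStatement X)
    {f f' t : ↥X.F} (hf : f ≠ 0) (ht : t ≠ 0) (hff' : f' = f * t ^ m) {χ χ' : Char0 X}
    (h : IsKummerCharOf X m (f : LaurentSeries ℂ) χ)
    (h' : IsKummerCharOf X m (f' : LaurentSeries ℂ) χ') : χ = χ' := by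
  obtain ⟨a, b, hb0, ha, hb, htb⟩ := hFRAC t
  have ha0 : a ≠ 0 := by
    rw [← htb]
    exact mul_ne_zero ht hb0
  have h1 := isKummerCharOf_mul_pow hGROW h ha
  have h2 := isKummerCharOf_mul_pow hGROW h' hb
  have h3 : (f' : LaurentSeries ℂ) * (b : LaurentSeries ℂ) ^ m
      = (f : LaurentSeries ℂ) * (a : LaurentSeries ℂ) ^ m := by
    have : f' * b ^ m = f * a ^ m := by
      rw [hff', ← htb, mul_pow]
      ring
    have := congrArg (fun y : ↥X.F => (y : LaurentSeries ℂ)) this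
    simpa using this
  rw [h3] at h2
  have h4 : (f : LaurentSeries ℂ) * (a : LaurentSeries ℂ) ^ m ≠ 0 :=
    mul_ne_zero (coe_ne_zero hf) (pow_ne_zero _ (coe_ne_zero ha0))
  exact hUNIQ m hm _ h4 χ χ' h1 h2



/-- The torsion–character relation in terms of Kummer characters. -/
theorem torsionCharRel_iff (x : Pic0 ℂ ↥X.F)
    (χ : ↥X.Γ →* ℂˣ) :
    TorsionCharRel X m x χ ↔
      ∃ (D : Divisor.degZero (K := ℂ) (F := ↥X.F)) (f : ↥X.F),
        Pic0.mk D = x ∧ f ≠ 0 ∧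
        (∀ v : Place ℂ ↥X.F, v.ord f = (m : ℤ) * (D : Divisor ℂ ↥X.F) v) ∧
        IsKummerCharOf X m (f : LaurentSeries ℂ) χ := by
  constructor
  · rintro ⟨D, f, G, h1, h2, h3, h4, h5, h6⟩
    exact ⟨D, f, h1, h2, h3, G, h4, h5, h6⟩
  · rintro ⟨D, f, h1, h2, h3, G, h4, h5, h6⟩
    exact ⟨D, f, G, h1, h2, h3, h4, h5, h6⟩

/-- A function with a Kummer character is holomorphic. -/
theorem isHol_of_isKummerCharOf {f : LaurentSeries ℂ}
    {χ : ↥X.Γ →* ℂˣ}
    (h : IsKummerCharOf X m f χ) : IsHol f := by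
  obtain ⟨G, -, hG, -⟩ := h
  exact ⟨G ^ m, hG⟩

theorem ord_pow_nat (v : Place ℂ ↥X.F) (s : ↥X.F) (k : ℕ) :
    v.ord (s ^ k) = (k : ℤ) * v.ord s := by
  have := v.ord_zpow s (k : ℤ)
  rwa [zpow_natCast] at this

/-- **[A-FWD]** -/
theorem forward_of_kummer (hPD : PrincipalDivisorStatement X)
    (hHOL : HolRepStatement X)
    (hEX : KummerExistsStatement X) : ForwardStatement X := by
  intro m hm x hx
  obtain ⟨D₀, rfl⟩ := Pic0.mk_surjective x
  obtain ⟨f₀, hf₀, hord₀⟩ := (pic0_mk_mem_torsion_iff m D₀).mp hx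
  obtain ⟨s, hs0, hhol⟩ := hHOL m hm f₀ hf₀
  obtain ⟨E, hE, hEdeg⟩ := hPD.1.exists_divisor s hs0
  have hf0 : f₀ * s ^ m ≠ 0 := mul_ne_zero hf₀ (pow_ne_zero _ hs0)
  have hordf : ∀ v : Place ℂ ↥X.F,
      v.ord (f₀ * s ^ m) = (m : ℤ) * ((D₀ : Divisor ℂ ↥X.F) v + E v) := by
    intro v
    rw [Place.ord_mul v hf₀ (pow_ne_zero _ hs0), hord₀ v, ord_pow_nat, hE v]
    ring
  obtain ⟨χ, -, hχ⟩ := hEX m hm (f₀ * s ^ m)
    ⟨hf0, fun P => ⟨_, hordf P⟩⟩ hhol
  refine ⟨χ, (torsionCharRel_iff _ _).mpr ?_⟩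
  refine ⟨D₀ + ⟨E, Divisor.mem_degZero.mpr hEdeg⟩, f₀ * s ^ m, ?_, hf0, ?_, hχ⟩
  · rw [eq_comm, pic0_mk_eq_iff]
    refine ⟨s, hs0, fun v => ?_⟩
    rw [← hE v]
    simp
  · intro v
    rw [hordf v]
    simp

/-- Two functions with divisors `m D`, `m D'` for equivalent `D`, `D'` differ by an `m`-th
power. -/
theorem exists_pow_of_equiv (hm : 0 < m) (hPD : PrincipalDivisorStatement X)
    {D D' : Divisor.degZero (K := ℂ) (F := ↥X.F)} {f f' : ↥X.F}
    (hDD' : Pic0.mk D = Pic0.mk D') (hf : f ≠ 0) (hf' : f' ≠ 0)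
    (hord : ∀ v : Place ℂ ↥X.F, v.ord f = (m : ℤ) * (D : Divisor ℂ ↥X.F) v)
    (hord' : ∀ v : Place ℂ ↥X.F, v.ord f' = (m : ℤ) * (D' : Divisor ℂ ↥X.F) v) :
    ∃ t : ↥X.F, t ≠ 0 ∧ f' = f * t ^ m := by
  obtain ⟨t, ht, hDt⟩ := (pic0_mk_eq_iff D D').mp hDD'
  have hq0 : f' * (f * t ^ m)⁻¹ ≠ 0 :=
    mul_ne_zero hf' (inv_ne_zero (mul_ne_zero hf (pow_ne_zero _ ht)))
  have hq : ∀ v : Place ℂ ↥X.F, v.ord (f' * (f * t ^ m)⁻¹) = 0 := by
    intro v
    rw [Place.ord_mul v hf' (inv_ne_zero (mul_ne_zero hf (pow_ne_zero _ ht))),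
      Place.ord_inv, Place.ord_mul v hf (pow_ne_zero _ ht), ord_pow_nat, hord v, hord' v,
      ← hDt v]
    ring
  obtain ⟨c, hc⟩ := hPD.2 _ hq0 hq
  have hc0 : c ≠ 0 := by
    rintro rfl
    rw [map_zero] at hc
    exact hq0 hc
  obtain ⟨c₀, hc₀⟩ := IsAlgClosed.exists_pow_nat_eq c hm
  have hc₀0 : c₀ ≠ 0 := by
    rintro rfl
    rw [zero_pow hm.ne'] at hc₀
    exact hc0 hc₀.symm
  refine ⟨algebraMap ℂ ↥X.F c₀ * t, mul_ne_zero ?_ ht, ?_⟩
  · rw [Ne, map_eq_zero]; exact hc₀0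
  · rw [mul_pow, ← map_pow, hc₀, ← hc]
    field_simp

/-- **[A-UNIQ]** -/
theorem unique_of_kummer (hPD : PrincipalDivisorStatement X)
    (hFRAC : FracHolStatement X)
    (hGROW : InvariantGrowthStatement X)
    (hUNIQ : KummerUniqueStatement X) : UniqueStatement X := by
  intro m hm x χ χ' h h'
  obtain ⟨D, f, hD, hf, hord, hχ⟩ := (torsionCharRel_iff _ _).mp h
  obtain ⟨D', f', hD', hf', hord', hχ'⟩ := (torsionCharRel_iff _ _).mp h'
  obtain ⟨t, ht, hff'⟩ := exists_pow_of_equiv hm hPD (hD.trans hD'.symm) hf hf' hord hord'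
  exact kummerChar_indep hm hFRAC hGROW hUNIQ hf ht hff' hχ hχ'

/-- **[A-ADM]** -/
theorem admissible_of_kummer (hEX : KummerExistsStatement X)
    (hUNIQ : KummerUniqueStatement X) : AdmissibleStatement X := by
  intro m hm x χ h
  obtain ⟨D, f, hD, hf, hord, hχ⟩ := (torsionCharRel_iff _ _).mp h
  refine ⟨?_, ?_⟩
  · rw [← hD]
    exact (pic0_mk_mem_torsion_iff m D).mpr ⟨f, hf, hord⟩
  · obtain ⟨χ', hχ'mem, hχ'⟩ := hEX m hm f ⟨hf, fun P => ⟨_, hord P⟩⟩
      (isHol_of_isKummerCharOf hχ)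
    have := hUNIQ m hm _ (coe_ne_zero hf) χ χ' hχ hχ'
    subst this
    exact ⟨hχ'mem.2, (isParEllTrivial_iff χ).mp hχ'mem.1⟩

/-- **[A-ADD]** -/
theorem additive_holds (X : Model) : AdditiveStatement X := by
  rintro m hm x x' χ χ' ⟨D, f, G, h1, h2, h3, h4, h5, h6⟩ ⟨D', f', G', h1', h2', h3', h4', h5', h6'⟩
  refine ⟨D + D', f * f', G * G', ?_, mul_ne_zero h2 h2', ?_, h4.mul h4', ?_, ?_⟩
  · rw [Pic0.mk_add, h1, h1']
  · intro v
    rw [Place.ord_mul v h2 h2', h3 v, h3' v]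
    simp [mul_add]
  · unfold Rep at h5 h5' ⊢
    rw [mul_pow]
    exact h5.mul h5'
  · intro γ z
    rw [Pi.mul_apply, Pi.mul_apply, h6 γ z, h6' γ z, MonoidHom.mul_apply, Units.val_mul]
    ring

/-- **[A-INJ]** -/
theorem injective_of_kummer (hKER : KummerKernelStatement X) :
    InjectiveStatement X := by
  intro m hm x h
  obtain ⟨D, f, hD, hf, hord, hχ⟩ := (torsionCharRel_iff _ _).mp h
  obtain ⟨y, hy⟩ := hKER m hm f hf hχ
  have hy0 : y ≠ 0 := by
    rintro rfl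
    rw [zero_pow hm.ne'] at hy
    exact hf hy.symm
  rw [← hD, pic0_mk_eq_zero_iff]
  refine ⟨y, hy0, fun v => ?_⟩
  have h1 := hord v
  rw [← hy, ord_pow_nat] at h1
  have hm' : (m : ℤ) ≠ 0 := by exact_mod_cast hm.ne'
  exact (mul_left_cancel₀ hm' h1).symm

/-- **[A-SURJ]** -/
theorem surjective_of_kummer (hPD : PrincipalDivisorStatement X)
    (hSURJ : KummerSurjStatement X) : SurjectiveStatement X := by
  intro m hm χ hχm hχpe
  obtain ⟨f, ⟨hf, hdiv⟩, hχ⟩ := hSURJ m hm χ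
    ⟨(isParEllTrivial_iff χ).mpr hχpe, hχm⟩
  obtain ⟨E, hE, hEdeg⟩ := hPD.1.exists_divisor f hf
  have hEdvd : ∀ v, (m : ℤ) ∣ E v := fun v => by rw [hE v]; exact hdiv v
  refine ⟨Pic0.mk ⟨divisorDiv m E, Divisor.mem_degZero.mpr (degree_divisorDiv hm hEdvd hEdeg)⟩,
    (torsionCharRel_iff _ _).mpr ⟨_, f, rfl, hf, fun v => ?_, hχ⟩⟩
  show v.ord f = (m : ℤ) * divisorDiv m E v
  rw [divisorDiv_apply, Int.mul_ediv_cancel' (hEdvd v), hE v]

/-- **ES-A, final Pic⁰ form**, from the Kummer statements. -/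
theorem torsionChar_of_kummer (X : Model) (hPD : PrincipalDivisorStatement X)
    (hFRAC : FracHolStatement X)
    (hGROW : InvariantGrowthStatement X)
    (hEX : KummerExistsStatement X)
    (hUNIQ : KummerUniqueStatement X)
    (hKER : KummerKernelStatement X)
    (hSURJ : KummerSurjStatement X) : TorsionCharStatement X :=
  torsionChar_of_parts X
    (forward_of_kummer hPD (holRep_of_fracHol X hFRAC) hEX)
    (unique_of_kummer hPD hFRAC hGROW hUNIQ)
    (admissible_of_kummer hEX hUNIQ)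
    (additive_holds X)
    (injective_of_kummer hKER)
    (surjective_of_kummer hPD hSURJ)


/-- Powers in the torsion–character relation. -/
theorem torsionCharRel_nsmul (hadd : ∀ x x' χ χ', TorsionCharRel X m x χ →
      TorsionCharRel X m x' χ' → TorsionCharRel X m (x + x') (χ * χ'))
    {x : Pic0 ℂ ↥X.F} {χ : ↥X.Γ →* ℂˣ}
    (h : TorsionCharRel X m x χ) (k : ℕ) :
    TorsionCharRel X m ((k + 1) • x) (χ ^ (k + 1)) := by
  induction k with
  | zero =>
    have e1 : (0 + 1) • x = x := by rw [Nat.zero_add, one_nsmul]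
    have e2 : χ ^ (0 + 1) = χ := by rw [Nat.zero_add]; exact pow_one χ
    rw [e1, e2]
    exact h
  | succ k ih =>
    have e1 : (k + 1 + 1) • x = (k + 1) • x + x := succ_nsmul x (k + 1)
    have e2 : χ ^ (k + 1 + 1) = χ ^ (k + 1) * χ := pow_succ χ (k + 1)
    rw [e1, e2]
    exact hadd _ _ _ _ ih h

/-- **ES-A, bijection form**: for `m > 0` the torsion–character relation is the graph of a
multiplicative bijection from `Pic⁰(FC X)[m]` onto the group of Kummer characters. -/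
theorem exists_equiv_of_torsionChar (h : TorsionCharStatement X) (hm : 0 < m) :
    ∃ e : ↥(Pic0.torsion ℂ ↥X.F m) ≃ ↥(kummerChars X m),
      (∀ x : ↥(Pic0.torsion ℂ ↥X.F m), TorsionCharRel X m (x : Pic0 ℂ ↥X.F)
        ((e x : ↥(kummerChars X m)) :
          ↥X.Γ →* ℂˣ)) ∧
      (∀ x y, e (x + y) = e x * e y) := by
  obtain ⟨h1, h2, h3, h4, h5, h6⟩ := h m hm
  have hmem : ∀ x χ, TorsionCharRel X m x χ → χ ∈ kummerChars X m := by
    intro x χ hx
    obtain ⟨-, hχm, hχpe⟩ := h3 x χ hx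
    exact ⟨(isParEllTrivial_iff χ).mpr hχpe, hχm⟩
  choose κ hκ using fun x : ↥(Pic0.torsion ℂ ↥X.F m) => h1 (x : Pic0 ℂ ↥X.F) x.2
  let f : ↥(Pic0.torsion ℂ ↥X.F m) → ↥(kummerChars X m) :=
    fun x => ⟨κ x, hmem _ _ (hκ x)⟩
  have hfmul : ∀ x y, f (x + y) = f x * f y := by
    intro x y
    apply Subtype.ext
    show κ (x + y) = κ x * κ y
    exact h2 _ _ _ (hκ (x + y)) (h4 _ _ _ _ (hκ x) (hκ y))
  have hinj : Function.Injective f := by
    intro x y hxy
    have hκxy : κ x = κ y := congrArg Subtype.val hxy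
    have hxtors : ((m : ℕ) : ℤ) • (x : Pic0 ℂ ↥X.F) = 0 := (Pic0.mem_torsion).mp x.2
    have hytors : ((m : ℕ) : ℤ) • (y : Pic0 ℂ ↥X.F) = 0 := (Pic0.mem_torsion).mp y.2
    rcases Nat.lt_or_ge 1 m with h1m | h1m
    · -- `m ≥ 2`: `-y = (m - 1) • y`
      obtain ⟨j, hj⟩ : ∃ j, m = j + 1 + 1 := ⟨m - 2, by omega⟩
      have hyj := torsionCharRel_nsmul h4 (hκ y) j
      have hsum := h4 _ _ _ _ (hκ x) hyj
      have hχ : κ x * κ y ^ (j + 1) = 1 := by
        rw [hκxy]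
        have e : κ y * κ y ^ (j + 1) = κ y ^ (j + 1 + 1) := (pow_succ' (κ y) (j + 1)).symm
        rw [e, ← hj]
        exact (h3 _ _ (hκ y)).2.1
      rw [hχ] at hsum
      have h0 := h5 _ hsum
      have hyt : (j + 1 + 1) • (y : Pic0 ℂ ↥X.F) = 0 := by
        rw [← hj, ← natCast_zsmul]
        exact hytors
      rw [succ_nsmul] at hyt
      apply Subtype.ext
      have : (x : Pic0 ℂ ↥X.F) - y
          = (x : Pic0 ℂ ↥X.F) + (j + 1) • (y : Pic0 ℂ ↥X.F) := by
        rw [sub_eq_add_neg]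
        congr 1
        exact (eq_neg_of_add_eq_zero_left hyt).symm
      rw [← this] at h0
      exact sub_eq_zero.mp h0
    · -- `m = 1`: the torsion group is trivial
      have hm1 : ((m : ℕ) : ℤ) = 1 := by
        have : m = 1 := by omega
        exact_mod_cast this
      rw [hm1, one_zsmul] at hxtors hytors
      exact Subtype.ext (hxtors.trans hytors.symm)
  have hsurj : Function.Surjective f := by
    rintro ⟨χ, hχ⟩
    obtain ⟨x, hx⟩ := h6 χ hχ.2 ((isParEllTrivial_iff χ).mp hχ.1)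
    have hxt := (h3 x χ hx).1
    refine ⟨⟨x, hxt⟩, Subtype.ext ?_⟩
    show κ ⟨x, hxt⟩ = χ
    exact h2 _ _ _ (hκ ⟨x, hxt⟩) hx
  exact ⟨Equiv.ofBijective f ⟨hinj, hsurj⟩, fun x => hκ x, hfmul⟩

/-- The `m`-torsion of `Pic⁰(FC X)` is finite (the input of ES-B). -/
theorem finite_torsion (h : TorsionCharStatement X)
    (hfin : KummerCharsFiniteStatement X) (hm : 0 < m) :
    Finite ↥(Pic0.torsion ℂ ↥X.F m) := by
  obtain ⟨e, -, -⟩ := exists_equiv_of_torsionChar h hm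
  have := hfin m hm
  exact Finite.of_equiv _ e.symm

/-- Cardinality of the torsion. -/
theorem card_torsion (h : TorsionCharStatement X) (hm : 0 < m) :
    Nat.card ↥(Pic0.torsion ℂ ↥X.F m)
      = Nat.card ↥(kummerChars X m) := by
  obtain ⟨e, -, -⟩ := exists_equiv_of_torsionChar h hm
  exact Nat.card_congr e


end Fermat.Agent.H23.ES1A

end
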