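/-
P-ES1 / ES1-A (helper23): groups WITHOUT `-1` (e.g. `Γ₁(M)`, `M ≥ 3`).

The generic theory needs `-1 ∈ Γ` (the coset embeddings only see `γ` up to sign).  For an arbitrary
model `X` this file defines

* `pmSubgroup Γ = {g | g ∈ Γ ∨ -g ∈ Γ}` and the model `X.pm` (same field, group `± Γ`);
* `Model.IsModularPre X` : the inputs, in a form which never mentions `± Γ`;
* `Model.IsModularPre.pm : X.IsModularPre → X.pm.IsModular`;
* `torsionChar_of_pm : TorsionCharStatement X.pm → TorsionCharStatement X`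
  (characters of `Γ` extend uniquely to `± Γ`), given the (unconditional) `CharOfRootStatement`.
-/
import Fermat.Agent.H23.ES1A.Final

set_option autoImplicit false

noncomputable section

open AlgebraicCurve UpperHalfPlane IntermediateField
open scoped MatrixGroups Manifold

namespace Fermat.Agent.H23.ES1A

open Fermat.Agent.H23 (jfun)
open Fermat.Agent.H23.EsA (ModerateGrowth)

/-- The subgroup `± Γ` of `SL(2, ℤ)`. -/
def pmSubgroup (Γ : Subgroup SL(2, ℤ)) : Subgroup SL(2, ℤ) where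
  carrier := {g | g ∈ Γ ∨ -g ∈ Γ}
  one_mem' := Or.inl Γ.one_mem
  mul_mem' := by
    rintro a b (ha | ha) (hb | hb)
    · exact Or.inl (Γ.mul_mem ha hb)
    · refine Or.inr ?_
      have := Γ.mul_mem ha hb
      rwa [mul_neg] at this
    · refine Or.inr ?_
      have := Γ.mul_mem ha hb
      rwa [neg_mul] at this
    · refine Or.inl ?_
      have := Γ.mul_mem ha hb
      rwa [neg_mul_neg] at this
  inv_mem' := by
    rintro a (ha | ha)
    · exact Or.inl (Γ.inv_mem ha)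
    · refine Or.inr ?_
      have := Γ.inv_mem ha
      rwa [inv_neg] at this

theorem mem_pmSubgroup {Γ : Subgroup SL(2, ℤ)} {g : SL(2, ℤ)} :
    g ∈ pmSubgroup Γ ↔ g ∈ Γ ∨ -g ∈ Γ := Iff.rfl

theorem le_pmSubgroup (Γ : Subgroup SL(2, ℤ)) : Γ ≤ pmSubgroup Γ := fun _ h => Or.inl h

theorem neg_one_mem_pmSubgroup (Γ : Subgroup SL(2, ℤ)) : (-1 : SL(2, ℤ)) ∈ pmSubgroup Γ :=
  Or.inr (by rw [neg_neg]; exact Γ.one_mem)

/-- The model with the same field and the group `± Γ`. -/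
def Model.pm (X : Model) : Model where
  Γ := pmSubgroup X.Γ
  F := X.F
  R := X.R
  j := X.j

@[simp] theorem Model.pm_Γ (X : Model) : X.pm.Γ = pmSubgroup X.Γ := rfl
@[simp] theorem Model.pm_F (X : Model) : X.pm.F = X.F := rfl
@[simp] theorem Model.pm_R (X : Model) : X.pm.R = X.R := rfl
@[simp] theorem Model.pm_j (X : Model) : X.pm.j = X.j := rfl

/-- **The inputs for a group which need not contain `-1`.** -/
structure Model.IsModularPre (X : Model) : Prop where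
  /-- `T ∈ Γ` -/
  T_mem : ModularGroup.T ∈ X.Γ
  /-- `Γ` has finite index in `SL(2, ℤ)` -/
  finiteIndex : X.Γ.FiniteIndex
  /-- `j ∈ R` -/
  j_mem : X.j ∈ X.R
  /-- `j` is represented by the analytic `j`-function -/
  j_rep : Rep X jfun X.j
  /-- `F` is the field of fractions of `R` -/
  frac : ∀ f : ↥X.F, ∃ r s : ↥X.F, r ∈ X.R ∧ s ∈ X.R ∧ s ≠ 0 ∧ f * s = r
  /-- every element of `R` is represented by a holomorphic `Γ`-invariant function of moderate
  growth at all cusps -/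
  rep : ∀ r : ↥X.F, r ∈ X.R → ∃ h : ℍ → ℂ, Rep X h r ∧ MDiff h ∧
    (∀ γ ∈ X.Γ, ∀ z : ℍ, h (γ • z) = h z) ∧ ModerateGrowth h
  /-- **separation**: an element of `SL(2, ℤ)` fixing all the functions representing elements of
  `R` lies in `± Γ` -/
  sep : ∀ γ : SL(2, ℤ),
    (∀ (r : ↥X.F) (h : ℍ → ℂ), r ∈ X.R → Rep X h r → ∀ z : ℍ, h (γ • z) = h z) →
      γ ∈ X.Γ ∨ -γ ∈ X.Γ

/-- The inputs for `Γ` give the inputs for `± Γ`. -/
theorem Model.IsModularPre.pm {X : Model} (hX : X.IsModularPre) : X.pm.IsModular where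
  neg_one_mem := neg_one_mem_pmSubgroup X.Γ
  T_mem := le_pmSubgroup X.Γ hX.T_mem
  finiteIndex := by
    have := hX.finiteIndex
    exact Subgroup.finiteIndex_of_le (le_pmSubgroup X.Γ)
  j_mem := hX.j_mem
  j_rep := hX.j_rep
  frac := hX.frac
  rep := by
    intro r hr
    obtain ⟨h, h1, h2, h3, h4⟩ := hX.rep r hr
    refine ⟨h, h1, h2, ?_, h4⟩
    rintro γ (hγ | hγ) z
    · exact h3 γ hγ z
    · have := h3 (-γ) hγ z
      rwa [ModularGroup.SL_neg_smul] at this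
  sep := fun γ hγ => hX.sep γ hγ

/-- A modular model is a pre-modular model. -/
theorem Model.IsModular.pre {X : Model} (hX : X.IsModular) : X.IsModularPre where
  T_mem := hX.T_mem
  finiteIndex := hX.finiteIndex
  j_mem := hX.j_mem
  j_rep := hX.j_rep
  frac := hX.frac
  rep := hX.rep
  sep := fun γ hγ => Or.inl (hX.sep γ hγ)

/-! ### Characters of `Γ` and of `± Γ` -/

section Characters

variable {X : Model}

/-- Restriction of a character of `± Γ` to `Γ`. -/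
def resChar (χ : ↥X.pm.Γ →* ℂˣ) : ↥X.Γ →* ℂˣ :=
  χ.comp (Subgroup.inclusion (le_pmSubgroup X.Γ))

@[simp] theorem resChar_apply (χ : ↥X.pm.Γ →* ℂˣ) (γ : ↥X.Γ) :
    resChar χ γ = χ ⟨(γ : SL(2, ℤ)), Or.inl γ.2⟩ := rfl

theorem resChar_pow (χ : ↥X.pm.Γ →* ℂˣ) (m : ℕ) : resChar (χ ^ m) = resChar χ ^ m := rfl

theorem resChar_mul (χ χ' : ↥X.pm.Γ →* ℂˣ) : resChar (χ * χ') = resChar χ * resChar χ' := rfl

theorem resChar_one : resChar (1 : ↥X.pm.Γ →* ℂˣ) = (1 : ↥X.Γ →* ℂˣ) := rfl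

open Classical in
/-- Extension of a character of `Γ` to `± Γ` (value at `g ∉ Γ`: the value at `-g`). -/
def extChar (χ : ↥X.Γ →* ℂˣ) : ↥X.pm.Γ →* ℂˣ where
  toFun g := if h : (g : SL(2, ℤ)) ∈ X.Γ then χ ⟨g, h⟩
    else χ ⟨-(g : SL(2, ℤ)), g.2.resolve_left h⟩
  map_one' := by
    have h : ((1 : ↥X.pm.Γ) : SL(2, ℤ)) ∈ X.Γ := X.Γ.one_mem
    rw [dif_pos h]
    exact map_one χ
  map_mul' := by
    intro a b
    by_cases ha : (a : SL(2, ℤ)) ∈ X.Γ <;> by_cases hb : (b : SL(2, ℤ)) ∈ X.Γ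
    · have hab : ((a * b : ↥X.pm.Γ) : SL(2, ℤ)) ∈ X.Γ := X.Γ.mul_mem ha hb
      rw [dif_pos ha, dif_pos hb, dif_pos hab, ← map_mul]
      rfl
    · have hab : ((a * b : ↥X.pm.Γ) : SL(2, ℤ)) ∉ X.Γ := by
        intro h
        apply hb
        have := X.Γ.mul_mem (X.Γ.inv_mem ha) h
        rw [Subgroup.coe_mul, inv_mul_cancel_left] at this
        exact this
      rw [dif_pos ha, dif_neg hb, dif_neg hab, ← map_mul]
      congr 1
      apply Subtype.ext
      show -((a : SL(2, ℤ)) * (b : SL(2, ℤ))) = (a : SL(2, ℤ)) * -(b : SL(2, ℤ))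
      rw [mul_neg]
    · have hab : ((a * b : ↥X.pm.Γ) : SL(2, ℤ)) ∉ X.Γ := by
        intro h
        apply ha
        have := X.Γ.mul_mem h (X.Γ.inv_mem hb)
        rw [Subgroup.coe_mul, mul_inv_cancel_right] at this
        exact this
      rw [dif_neg ha, dif_pos hb, dif_neg hab, ← map_mul]
      congr 1
      apply Subtype.ext
      show -((a : SL(2, ℤ)) * (b : SL(2, ℤ))) = -(a : SL(2, ℤ)) * (b : SL(2, ℤ))
      rw [neg_mul]
    · have ha' : -(a : SL(2, ℤ)) ∈ X.Γ := a.2.resolve_left ha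
      have hb' : -(b : SL(2, ℤ)) ∈ X.Γ := b.2.resolve_left hb
      have hab : ((a * b : ↥X.pm.Γ) : SL(2, ℤ)) ∈ X.Γ := by
        have := X.Γ.mul_mem ha' hb'
        rwa [neg_mul_neg] at this
      rw [dif_neg ha, dif_neg hb, dif_pos hab, ← map_mul]
      congr 1
      apply Subtype.ext
      show (a : SL(2, ℤ)) * (b : SL(2, ℤ)) = -(a : SL(2, ℤ)) * -(b : SL(2, ℤ))
      rw [neg_mul_neg]

open Classical in
theorem extChar_of_mem (χ : ↥X.Γ →* ℂˣ) (g : ↥X.pm.Γ) (h : (g : SL(2, ℤ)) ∈ X.Γ) :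
    extChar χ g = χ ⟨g, h⟩ := by
  show (if h : (g : SL(2, ℤ)) ∈ X.Γ then χ ⟨g, h⟩
    else χ ⟨-(g : SL(2, ℤ)), g.2.resolve_left h⟩) = _
  rw [dif_pos h]

open Classical in
theorem extChar_of_not_mem (χ : ↥X.Γ →* ℂˣ) (g : ↥X.pm.Γ) (h : (g : SL(2, ℤ)) ∉ X.Γ) :
    extChar χ g = χ ⟨-(g : SL(2, ℤ)), g.2.resolve_left h⟩ := by
  show (if h : (g : SL(2, ℤ)) ∈ X.Γ then χ ⟨g, h⟩
    else χ ⟨-(g : SL(2, ℤ)), g.2.resolve_left h⟩) = _
  rw [dif_neg h]

theorem resChar_extChar (χ : ↥X.Γ →* ℂˣ) : resChar (extChar χ) = χ := by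
  ext γ
  rw [resChar_apply, extChar_of_mem χ _ γ.2]

theorem extChar_pow_eq_one {χ : ↥X.Γ →* ℂˣ} {m : ℕ} (h : χ ^ m = 1) : extChar χ ^ m = 1 := by
  ext g
  have key : ∀ γ : ↥X.Γ, χ γ ^ m = 1 := fun γ => by
    have := congrArg (fun ψ : ↥X.Γ →* ℂˣ => ψ γ) h
    simpa using this
  by_cases hg : (g : SL(2, ℤ)) ∈ X.Γ
  · rw [MonoidHom.pow_apply, extChar_of_mem χ g hg, key]
    rfl
  · rw [MonoidHom.pow_apply, extChar_of_not_mem χ g hg, key]
    rfl

theorem isParEllTrivial_extChar {χ : ↥X.Γ →* ℂˣ} (h : IsParEllTrivial X χ) :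
    IsParEllTrivial X.pm (extChar χ) := by
  intro g hg
  by_cases hgm : (g : SL(2, ℤ)) ∈ X.Γ
  · rw [extChar_of_mem χ g hgm]
    exact h ⟨g, hgm⟩ hg
  · rw [extChar_of_not_mem χ g hgm]
    refine h ⟨-(g : SL(2, ℤ)), g.2.resolve_left hgm⟩ ?_
    have e : ((-(g : SL(2, ℤ)) : SL(2, ℤ)) 0 0 + (-(g : SL(2, ℤ)) : SL(2, ℤ)) 1 1 : ℤ)
        = -((g : SL(2, ℤ)) 0 0 + (g : SL(2, ℤ)) 1 1) := by
      simp only [Matrix.SpecialLinearGroup.coe_neg, Matrix.neg_apply]
      ring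
    show |((-(g : SL(2, ℤ)) : SL(2, ℤ)) 0 0 + (-(g : SL(2, ℤ)) : SL(2, ℤ)) 1 1 : ℤ)| ≤ 2
    rw [e, abs_neg]
    exact hg

theorem isParEllTrivial_resChar {χ : ↥X.pm.Γ →* ℂˣ} (h : IsParEllTrivial X.pm χ) :
    IsParEllTrivial X (resChar χ) := fun γ hγ => h ⟨(γ : SL(2, ℤ)), Or.inl γ.2⟩ hγ

/-- A function transforming by `χ` under `± Γ` transforms by the restriction under `Γ`. -/
theorem hasCharacter_resChar {G : ℍ → ℂ} {χ : ↥X.pm.Γ →* ℂˣ} (h : HasCharacter X.pm G χ) :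
    HasCharacter X G (resChar χ) := fun γ z => h ⟨(γ : SL(2, ℤ)), Or.inl γ.2⟩ z

/-- A function transforming by `χ` under `Γ` transforms by the extension under `± Γ`. -/
theorem hasCharacter_extChar {G : ℍ → ℂ} {χ : ↥X.Γ →* ℂˣ} (h : HasCharacter X G χ) :
    HasCharacter X.pm G (extChar χ) := by
  intro g z
  by_cases hg : (g : SL(2, ℤ)) ∈ X.Γ
  · rw [extChar_of_mem χ g hg]
    exact h ⟨g, hg⟩ z
  · rw [extChar_of_not_mem χ g hg]
    have := h ⟨-(g : SL(2, ℤ)), g.2.resolve_left hg⟩ z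
    rwa [ModularGroup.SL_neg_smul] at this

theorem torsionCharRel_resChar {m : ℕ} {x : Pic0 ℂ ↥X.F} {χ : ↥X.pm.Γ →* ℂˣ}
    (h : TorsionCharRel X.pm m x χ) : TorsionCharRel X m x (resChar χ) := by
  obtain ⟨D, f, G, h1, h2, h3, h4, h5, h6⟩ := h
  exact ⟨D, f, G, h1, h2, h3, h4, h5, hasCharacter_resChar h6⟩

theorem torsionCharRel_extChar {m : ℕ} {x : Pic0 ℂ ↥X.F} {χ : ↥X.Γ →* ℂˣ}
    (h : TorsionCharRel X m x χ) : TorsionCharRel X.pm m x (extChar χ) := by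
  obtain ⟨D, f, G, h1, h2, h3, h4, h5, h6⟩ := h
  exact ⟨D, f, G, h1, h2, h3, h4, h5, hasCharacter_extChar h6⟩

theorem extChar_one : extChar (1 : ↥X.Γ →* ℂˣ) = (1 : ↥X.pm.Γ →* ℂˣ) := by
  ext g
  by_cases hg : (g : SL(2, ℤ)) ∈ X.Γ
  · rw [extChar_of_mem _ g hg]; rfl
  · rw [extChar_of_not_mem _ g hg]; rfl

end Characters

/-- **TRANSFER**: the main statement for `± Γ` implies the main statement for `Γ`. -/
theorem torsionChar_of_pm (X : Model) (h : TorsionCharStatement X.pm) :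
    TorsionCharStatement X := by
  intro m hm
  obtain ⟨h1, h2, h3, h4, h5, h6⟩ := h m hm
  refine ⟨fun x hx => ?_, fun x χ χ' hχ hχ' => ?_, fun x χ hχ => ?_,
    fun x x' χ χ' hχ hχ' => ?_, fun x hx => ?_, fun χ hχm hχpe => ?_⟩
  · obtain ⟨χ, hχ⟩ := h1 x hx
    exact ⟨resChar χ, torsionCharRel_resChar hχ⟩
  · have := h2 x _ _ (torsionCharRel_extChar hχ) (torsionCharRel_extChar hχ')
    rw [← resChar_extChar χ, ← resChar_extChar χ', this]
  · obtain ⟨k1, k2, k3⟩ := h3 x _ (torsionCharRel_extChar hχ)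
    refine ⟨k1, ?_, ?_⟩
    · rw [← resChar_extChar χ, ← resChar_pow, k2, resChar_one]
    · rw [← resChar_extChar χ]
      exact isParEllTrivial_resChar k3
  · have := h4 x x' _ _ (torsionCharRel_extChar hχ) (torsionCharRel_extChar hχ')
    have := torsionCharRel_resChar this
    rwa [resChar_mul, resChar_extChar, resChar_extChar] at this
  · have := torsionCharRel_extChar hx
    rw [extChar_one] at this
    exact h5 x this
  · obtain ⟨x, hx⟩ := h6 (extChar χ) (extChar_pow_eq_one hχm) (isParEllTrivial_extChar hχpe)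
    have := torsionCharRel_resChar hx
    rw [resChar_extChar] at this
    exact ⟨x, this⟩

end Fermat.Agent.H23.ES1A

end
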