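/-
P-ES1 / ES1-A (helper23): SANITY CHECK of the generic interface: the landed ES-A data for `Γ₀(N)`
form a modular model.  (Template for the `Γ₁(M)` instance.)
-/
import Fermat.Agent.H23.ES1A.Transfer
import Fermat.Agent.H13.EsACoreC
import Fermat.Agent.H32.EsAMF

set_option autoImplicit false

noncomputable section

open AlgebraicCurve UpperHalfPlane IntermediateField
open scoped MatrixGroups Manifold

namespace Fermat.Agent.H23.ES1A

open Fermat.Agent.H23 (jfun scaleH)

/-- The model of `X₀(N)`. -/
abbrev gamma0Model (N : ℕ) [NeZero N] : Model where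
  Γ := CongruenceSubgroup.Gamma0 N
  F := Fermat.Agent.H23.EsA.FC N
  R := Fermat.Agent.H23.EsA.RsubC N
  j := Fermat.Agent.H23.EsA.jC N 1 (one_dvd N)

theorem scaleH_one_eq (z : ℍ) : scaleH 1 z = z := by
  apply UpperHalfPlane.ext
  simp [scaleH]

/-- The model of `X₀(N)` is modular. -/
theorem gamma0Model_isModular (N : ℕ) [NeZero N] : (gamma0Model N).IsModular where
  neg_one_mem := Fermat.Agent.H94.EsA.neg_one_mem_Gamma0 N
  T_mem := Fermat.Agent.H32.T_mem_Gamma0 N
  finiteIndex := by
    show (CongruenceSubgroup.Gamma0 N).FiniteIndex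
    infer_instance
  j_mem := Algebra.subset_adjoin ⟨1, inferInstance, one_dvd N, rfl⟩
  j_rep := by
    have h := (Fermat.Agent.H13.esaCoreC N).1 1 inferInstance (one_dvd N)
    have e : (fun z => jfun (scaleH 1 z)) = jfun := by
      funext z
      rw [scaleH_one_eq]
    rw [e] at h
    exact h
  frac := (Fermat.Agent.H13.esaCoreC N).2
  rep := Fermat.Agent.H13.esaRsubRep N
  sep := by
    intro γ hγ
    refine (Fermat.Agent.H82.separation N).1 γ fun z => ?_
    have hmem : Fermat.Agent.H23.EsA.jC N N dvd_rfl ∈ Fermat.Agent.H23.EsA.RsubC N :=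
      Algebra.subset_adjoin ⟨N, inferInstance, dvd_rfl, rfl⟩
    exact hγ _ _ hmem ((Fermat.Agent.H13.esaCoreC N).1 N inferInstance dvd_rfl) z

end Fermat.Agent.H23.ES1A

end
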